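import Fermat.Agent.SLnCount.Gauss
import Fermat.Agent.SLnLattice.Cone
import Mathlib.Analysis.SpecialFunctions.Integrals.Basic

/-!
# The volume of balls in `SL n ℝ`

For the cone measure, `μ {g | ∑ g i j ^ 2 ≤ R} / R ^ ((n ^ 2 - n) / 2)` tends to
`π ^ (n ^ 2 / 2) / (n Γ (n / 2) Γ ((n ^ 2 - n + 2) / 2))`.
-/

set_option autoImplicit false

noncomputable section

open MeasureTheory Matrix Set Filter Topology
open scoped ENNReal Real
open FA.SLnLattice (SLR Rows rdet unitCone cone coneMeasure)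

namespace FA.SLnCount

variable {m : ℕ}

/-- The exponent `(n ^ 2 - n) / 2` for `n = m + 1`. -/
def expo (m : ℕ) : ℝ := (m : ℝ) * ((m : ℝ) + 1) / 2

theorem expo_pos [NeZero m] : 0 < expo m := by
  have h : (0 : ℝ) < m := Nat.cast_pos.2 (Nat.pos_of_ne_zero (NeZero.ne m))
  exact div_pos (mul_pos h (by linarith)) two_pos

/-- The positive part to the power `m / 2`. -/
def vfun (m : ℕ) (q : ℝ) : ℝ≥0∞ := ENNReal.ofReal (max q 0 ^ ((m : ℝ) / 2))

theorem continuous_vfun : Continuous (vfun m) :=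
  ENNReal.continuous_ofReal.comp
    ((continuous_id.max continuous_const).rpow_const fun _ => Or.inr (by positivity))

theorem vfun_mono {p q : ℝ} (h : p ≤ q) : vfun m p ≤ vfun m q :=
  ENNReal.ofReal_le_ofReal
    (Real.rpow_le_rpow (le_max_right _ _) (max_le_max h le_rfl) (by positivity))

theorem vfun_of_nonpos [NeZero m] {q : ℝ} (hq : q ≤ 0) : vfun m q = 0 := by
  have h : (0 : ℝ) < (m : ℝ) / 2 :=
    half_pos (Nat.cast_pos.2 (Nat.pos_of_ne_zero (NeZero.ne m)))
  rw [vfun, max_eq_right hq, Real.zero_rpow h.ne', ENNReal.ofReal_zero]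

theorem vfun_sq_mul {t : ℝ} (ht : 0 ≤ t) (q : ℝ) :
    vfun m (t ^ 2 * q) = ENNReal.ofReal (t ^ m) * vfun m q := by
  have e : max (t ^ 2 * q) 0 = t ^ 2 * max q 0 := by
    rw [mul_max_of_nonneg _ _ (sq_nonneg t), mul_zero]
  rw [vfun, vfun, e, Real.mul_rpow (sq_nonneg t) (le_max_right _ _),
    ENNReal.ofReal_mul (by positivity), ← Real.rpow_natCast t 2, ← Real.rpow_mul ht]
  congr 2
  rw [← Real.rpow_natCast]
  congr 1
  push_cast
  ring

theorem volume_dot_le' [NeZero m] (q : ℝ) : volume {x : Fin m → ℝ | x ⬝ᵥ x ≤ q} =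
    ENNReal.ofReal (ballVol m) * vfun m q := by
  rw [volume_dot_le, ENNReal.ofReal_mul (ballVol_pos m).le, vfun]

theorem lintegral_comp_mul {r : ℝ} (hr : 0 < r) {F : ℝ → ℝ≥0∞} (hF : Measurable F) :
    ∫⁻ y, F (r * y) = (ENNReal.ofReal r)⁻¹ * ∫⁻ s, F s := by
  rw [← lintegral_map hF (measurable_const_mul r), Real.map_volume_mul_left hr.ne',
    lintegral_smul_measure, abs_of_pos (inv_pos.2 hr), ENNReal.ofReal_inv_of_pos hr, smul_eq_mul]

theorem volume_slice [NeZero m] (c : Fin (m + 1) → ℝ) {r : ℝ} (hr : 0 < r)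
    (hrc : Real.sqrt (c ⬝ᵥ c) = r) (a R : ℝ) :
    volume {x : Fin (m + 1) → ℝ | 0 < c ⬝ᵥ x ∧ c ⬝ᵥ x ≤ 1 ∧
        x ⬝ᵥ x + a ≤ R * (c ⬝ᵥ x) ^ (2 / ((m : ℝ) + 1))} =
      (ENNReal.ofReal r)⁻¹ * ∫⁻ s in Ioc (0 : ℝ) 1,
        ENNReal.ofReal (ballVol m) * vfun m (R * s ^ (2 / ((m : ℝ) + 1)) - a - (s / r) ^ 2) := by
  obtain ⟨e, he⟩ : ∃ e : ℝ, e = 2 / ((m : ℝ) + 1) := ⟨_, rfl⟩
  simp only [← he]
  obtain ⟨Q, hT, hQQ, hcQ⟩ := exists_reflection c
  rw [hrc] at hcQ
  have hQ : Q * Qᵀ = 1 := by rw [hT, hQQ]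
  obtain ⟨S, hS⟩ : ∃ S : Set (Fin (m + 1) → ℝ), S = {x : Fin (m + 1) → ℝ |
      0 < c ⬝ᵥ x ∧ c ⬝ᵥ x ≤ 1 ∧ x ⬝ᵥ x + a ≤ R * (c ⬝ᵥ x) ^ e} := ⟨_, rfl⟩
  rw [← hS]
  have hcx : Measurable fun x : Fin (m + 1) → ℝ => c ⬝ᵥ x :=
    (Continuous.dotProduct continuous_const continuous_id).measurable
  have hxx : Measurable fun x : Fin (m + 1) → ℝ => x ⬝ᵥ x :=
    (Continuous.dotProduct continuous_id continuous_id).measurable
  have hSm : MeasurableSet S := by
    rw [hS]
    exact (measurableSet_lt measurable_const hcx).inter ((measurableSet_le hcx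
      measurable_const).inter (measurableSet_le (hxx.add_const a) ((hcx.pow_const e).const_mul R)))
  obtain ⟨F, hF⟩ : ∃ F : ℝ → ℝ≥0∞, F = (Ioc (0 : ℝ) 1).indicator fun s =>
      ENNReal.ofReal (ballVol m) * vfun m (R * s ^ e - a - (s / r) ^ 2) := ⟨_, rfl⟩
  have hFm : Measurable F := by
    rw [hF]
    refine (Measurable.fun_mul measurable_const (continuous_vfun.measurable.comp ?_)).indicator
      measurableSet_Ioc
    fun_prop
  rw [← (measurePreserving_vecMul hQ).measure_preimage hSm.nullMeasurableSet,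
    ← (volume_preserving_piFinSuccAbove (fun _ : Fin (m + 1) => ℝ) 0).symm.measure_preimage
      ((measurePreserving_vecMul hQ).measurable hSm).nullMeasurableSet, Measure.volume_eq_prod,
    Measure.prod_apply ((MeasurableEquiv.measurable _)
      ((measurePreserving_vecMul hQ).measurable hSm)),
    ← lintegral_indicator measurableSet_Ioc, ← hF, ← lintegral_comp_mul hr hFm]
  refine lintegral_congr fun y₀ => ?_
  have key : ∀ y : Fin m → ℝ, ((Fin.insertNth 0 y₀ y : Fin (m + 1) → ℝ) ᵥ* Q) ∈ S ↔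
      0 < r * y₀ ∧ r * y₀ ≤ 1 ∧ y ⬝ᵥ y ≤ R * (r * y₀) ^ e - a - y₀ * y₀ := fun y => by
    have h1 : c ⬝ᵥ ((Fin.insertNth 0 y₀ y : Fin (m + 1) → ℝ) ᵥ* Q) = r * y₀ := by
      rw [← Matrix.mulVec_transpose, hT, dotProduct_mulVec, hcQ, single_dotProduct]
      simp
    have h2 : ((Fin.insertNth 0 y₀ y : Fin (m + 1) → ℝ) ᵥ* Q) ⬝ᵥ
        ((Fin.insertNth 0 y₀ y : Fin (m + 1) → ℝ) ᵥ* Q) = y₀ * y₀ + y ⬝ᵥ y := by
      rw [dotProduct_vecMul_self hQ]
      simp [dotProduct, Fin.sum_univ_succ]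
    rw [hS, Set.mem_ofPred_eq, h1, h2]
    refine and_congr_right fun _ => and_congr_right fun _ => ?_
    constructor <;> intro h <;> linarith
  by_cases hy : r * y₀ ∈ Ioc (0 : ℝ) 1
  · rw [hF, Set.indicator_of_mem hy, mul_div_cancel_left₀ _ hr.ne', sq, ← volume_dot_le']
    congr 1
    ext y
    exact (key y).trans ⟨fun h => h.2.2, fun h => ⟨hy.1, hy.2, h⟩⟩
  · rw [hF, Set.indicator_of_notMem hy]
    convert measure_empty (μ := (volume : Measure (Fin m → ℝ)))
    exact Set.eq_empty_of_forall_notMem fun y hy' => hy ⟨((key y).1 hy').1, ((key y).1 hy').2.1⟩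

/-- Scaling of integrals over rows. -/
theorem lintegral_smul_rows {t : ℝ} (ht : 0 < t) {f : (Fin m → Fin (m + 1) → ℝ) → ℝ≥0∞}
    (hf : Measurable f) :
    ∫⁻ A, f A = ENNReal.ofReal (t ^ (m * (m + 1))) * ∫⁻ A, f (t • A) := by
  have hr : Module.finrank ℝ (Fin m → Fin (m + 1) → ℝ) = m * (m + 1) := by
    simp [Module.finrank_pi_fintype]
  have h := lintegral_map (μ := (volume : Measure (Fin m → Fin (m + 1) → ℝ))) hf
    (measurable_const_smul t)
  rw [Measure.map_addHaar_smul volume ht.ne', lintegral_smul_measure, hr, abs_inv, abs_pow,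
    abs_of_pos ht, smul_eq_mul] at h
  rw [← h, ← mul_assoc, ← ENNReal.ofReal_mul (by positivity), mul_inv_cancel₀ (by positivity),
    ENNReal.ofReal_one, one_mul]

theorem wt_smul {t : ℝ} (ht : 0 < t) (A : Fin m → Fin (m + 1) → ℝ) :
    wt (t • A) = (ENNReal.ofReal (t ^ m))⁻¹ * wt A := by
  rw [wt, cr_smul ht.le, ENNReal.ofReal_mul (by positivity),
    ENNReal.mul_inv (Or.inr ENNReal.ofReal_ne_top) (Or.inl ENNReal.ofReal_ne_top), wt]

theorem inv_pow_mul_cancel {t : ℝ} (ht : 0 < t) (k : ℕ) (x y : ℝ≥0∞) :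
    (ENNReal.ofReal (t ^ k))⁻¹ * x * (ENNReal.ofReal (t ^ k) * y) = x * y := by
  rw [show (ENNReal.ofReal (t ^ k))⁻¹ * x * (ENNReal.ofReal (t ^ k) * y) =
    (ENNReal.ofReal (t ^ k))⁻¹ * ENNReal.ofReal (t ^ k) * (x * y) by ring,
    ENNReal.inv_mul_cancel (by simpa using pow_pos ht k) ENNReal.ofReal_ne_top, one_mul]

/-- The integral of the inverse cross product over a ball, weighted. -/
def capInt (m : ℕ) (t : ℝ) : ℝ≥0∞ :=
  ∫⁻ A : Fin m → Fin (m + 1) → ℝ, wt A * vfun m (t - frobSq A)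

theorem measurable_wt_vfun (t : ℝ) :
    Measurable fun A : Fin m → Fin (m + 1) → ℝ => wt A * vfun m (t - frobSq A) :=
  measurable_wt.mul (continuous_vfun.measurable.comp
    (continuous_const.sub continuous_frobSq).measurable)

theorem capInt_eq [NeZero m] (t : ℝ) :
    capInt m t = ENNReal.ofReal (max t 0 ^ expo m) * capInt m 1 := by
  rcases le_or_gt t 0 with ht | ht
  · rw [max_eq_right ht, Real.zero_rpow expo_pos.ne', ENNReal.ofReal_zero, zero_mul, capInt]
    have h : ∀ A : Fin m → Fin (m + 1) → ℝ, wt A * vfun m (t - frobSq A) = 0 := fun A => by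
      rw [vfun_of_nonpos (by linarith [frobSq_nonneg A]), mul_zero]
    simp only [h, lintegral_zero]
  · obtain ⟨u, hu, rfl⟩ : ∃ u, 0 < u ∧ t = u ^ 2 :=
      ⟨Real.sqrt t, Real.sqrt_pos.2 ht, (Real.sq_sqrt ht.le).symm⟩
    rw [capInt, lintegral_smul_rows hu (measurable_wt_vfun _), capInt, max_eq_left (sq_nonneg u)]
    congr 1
    · rw [← Real.rpow_natCast u 2, ← Real.rpow_mul hu.le, ← Real.rpow_natCast, expo]
      congr 2
      push_cast
      ring
    · refine lintegral_congr fun A => ?_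
      rw [wt_smul hu, frobSq_smul, show u ^ 2 - u ^ 2 * frobSq A = u ^ 2 * (1 - frobSq A) by ring,
        vfun_sq_mul hu.le, inv_pow_mul_cancel hu]

theorem lintegral_exp_max {q : ℝ} (hq : 0 < q) :
    ∫⁻ t : ℝ, ENNReal.ofReal (Real.exp (-t)) * ENNReal.ofReal (max t 0 ^ q) =
      ENNReal.ofReal (Real.Gamma (q + 1)) := by
  have e : (fun t : ℝ => ENNReal.ofReal (Real.exp (-t)) * ENNReal.ofReal (max t 0 ^ q)) =
      (Ioi (0 : ℝ)).indicator fun t => ENNReal.ofReal (Real.exp (-t) * t ^ (q + 1 - 1)) := by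
    funext t
    rw [← ENNReal.ofReal_mul (Real.exp_pos _).le, add_sub_cancel_right]
    rcases le_or_gt t 0 with ht | ht
    · rw [Set.indicator_of_notMem (show t ∉ Ioi (0 : ℝ) from not_lt.2 ht), max_eq_right ht,
        Real.zero_rpow hq.ne', mul_zero, ENNReal.ofReal_zero]
    · rw [Set.indicator_of_mem (mem_Ioi.2 ht), max_eq_left ht.le]
  rw [e, lintegral_indicator measurableSet_Ioi]
  exact lintegral_ofReal_eq (Real.GammaIntegral_convergent (by linarith))
    ((ae_restrict_mem measurableSet_Ioi).mono fun t ht =>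
      mul_nonneg (Real.exp_pos _).le (Real.rpow_nonneg (le_of_lt ht) _))
    (Real.Gamma_eq_integral (by linarith)).symm

/-- The leading constant `π ^ (n ^ 2 / 2) / (Γ (n / 2) Γ ((n ^ 2 - n + 2) / 2))`. -/
def ballConst (n : ℕ) : ℝ :=
  π ^ ((n : ℝ) ^ 2 / 2) /
    (Real.Gamma ((n : ℝ) / 2) * Real.Gamma (((n : ℝ) ^ 2 - n + 2) / 2))

theorem ballConst_pos {n : ℕ} (hn : 1 ≤ n) : 0 < ballConst n := by
  have h : (1 : ℝ) ≤ n := Nat.one_le_cast.2 hn
  exact div_pos (Real.rpow_pos_of_pos Real.pi_pos _)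
    (mul_pos (Real.Gamma_pos_of_pos (by linarith))
      (Real.Gamma_pos_of_pos (by nlinarith)))

theorem ballVol_mul_capInt [NeZero m] :
    ENNReal.ofReal (ballVol m) * capInt m 1 = ENNReal.ofReal (ballConst (m + 1)) := by
  have hp : 0 < expo m + 1 := by linarith [expo_pos (m := m)]
  have hg := Real.Gamma_pos_of_pos hp
  have hh : (0 : ℝ) < (m : ℝ) / 2 :=
    half_pos (Nat.cast_pos.2 (Nat.pos_of_ne_zero (NeZero.ne m)))
  have h1 : ∫⁻ t : ℝ, ENNReal.ofReal (Real.exp (-t)) * capInt m t =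
      ENNReal.ofReal (Real.Gamma (expo m + 1)) * capInt m 1 := by
    rw [lintegral_congr fun t : ℝ =>
      (congrArg (ENNReal.ofReal (Real.exp (-t)) * ·) (capInt_eq (m := m) t)).trans
        (mul_assoc _ _ _).symm, lintegral_mul_const _ (by fun_prop), lintegral_exp_max expo_pos]
  have h2 : ∫⁻ t : ℝ, ENNReal.ofReal (Real.exp (-t)) * capInt m t =
      ENNReal.ofReal (Real.Gamma ((m : ℝ) / 2 + 1)) * gaussWt m := by
    simp only [capInt, ← lintegral_const_mul' _ _ ENNReal.ofReal_ne_top]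
    rw [lintegral_lintegral_swap (by
      exact ((by fun_prop : Measurable fun p : ℝ × (Fin m → Fin (m + 1) → ℝ) =>
        ENNReal.ofReal (Real.exp (-p.1))).fun_mul ((measurable_wt.comp measurable_snd).fun_mul
          (continuous_vfun.comp (continuous_fst.sub
            (continuous_frobSq.comp continuous_snd))).measurable)).aemeasurable),
      gaussWt, ← lintegral_const_mul (μ := volume) _
        (f := fun A : Fin m → Fin (m + 1) → ℝ => ENNReal.ofReal (Real.exp (-frobSq A)) * wt A)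
        ((continuous_frobSq.neg.rexp.measurable.ennreal_ofReal).fun_mul measurable_wt)]
    refine lintegral_congr fun A => ?_
    simp only [mul_left_comm _ (wt A)]
    rw [lintegral_const_mul _ (by
      exact ((by fun_prop : Measurable fun t : ℝ => ENNReal.ofReal (Real.exp (-t))).fun_mul
        (continuous_vfun.measurable.comp (measurable_id.sub_const _))))]
    rw [← lintegral_add_right_eq_self
      (fun t => ENNReal.ofReal (Real.exp (-t)) * vfun m (t - frobSq A)) (frobSq A)]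
    simp only [add_sub_cancel_right, neg_add, Real.exp_add,
      ENNReal.ofReal_mul (Real.exp_pos _).le, vfun, mul_right_comm _ (ENNReal.ofReal
        (Real.exp (-frobSq A)))]
    rw [lintegral_mul_const _ (by fun_prop), lintegral_exp_max hh]
    ring
  rw [gaussWt_eq, ← ENNReal.ofReal_mul (Real.Gamma_pos_of_pos (by linarith)).le] at h2
  rw [h1] at h2
  have h3 : capInt m 1 = ENNReal.ofReal (Real.Gamma ((m : ℝ) / 2 + 1) *
      (Real.sqrt π ^ (m * (m + 1) + 1) / Real.Gamma (((m : ℝ) + 1) / 2)) /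
        Real.Gamma (expo m + 1)) := by
    rw [ENNReal.ofReal_div_of_pos hg, ← h2, mul_comm,
      ENNReal.mul_div_cancel_right (by simpa using hg) ENNReal.ofReal_ne_top]
  rw [h3, ← ENNReal.ofReal_mul (ballVol_pos m).le]
  congr 1
  have e : π ^ (((m + 1 : ℕ) : ℝ) ^ 2 / 2) = Real.sqrt π ^ m * Real.sqrt π ^ (m * (m + 1) + 1) := by
    rw [← pow_add, Real.sqrt_eq_rpow, ← Real.rpow_natCast _ (m + _), ← Real.rpow_mul Real.pi_pos.le]
    congr 1
    push_cast
    ring
  have hg' := (Real.Gamma_pos_of_pos (show (0 : ℝ) < (m : ℝ) / 2 + 1 by linarith)).ne'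
  rw [ballConst, e, ballVol,
    show (((m + 1 : ℕ) : ℝ) ^ 2 - ((m + 1 : ℕ) : ℝ) + 2) / 2 = expo m + 1 by
      rw [expo]; push_cast; ring]
  push_cast
  field_simp

/-- The squared norm of a real matrix of determinant one. -/
def normSqSL {n : ℕ} (g : SLR n) : ℝ := frobSq fun i j => g i j

/-- The balls. -/
def ball (n : ℕ) (R : ℝ) : Set (SLR n) := {g | normSqSL g ≤ R}

theorem continuous_normSqSL {n : ℕ} : Continuous (normSqSL : SLR n → ℝ) :=
  continuous_frobSq.comp (continuous_pi fun i => continuous_pi fun j => by fun_prop)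

theorem cone_ball (R : ℝ) :
    cone (ball (m + 1) R) = {X : Rows (m + 1) | 0 < rdet X ∧ rdet X ≤ 1 ∧
      frobSq X ≤ R * rdet X ^ (2 / ((m : ℝ) + 1))} := by
  rw [FA.SLnLattice.cone_eq]
  ext X
  simp only [Set.mem_inter_iff, Set.mem_preimage, unitCone, Set.mem_ofPred_eq, ball, Set.mem_Ioc]
  rw [and_comm, and_assoc]
  refine and_congr_right fun h => and_congr_right fun _ => ?_
  have hq : rdet X ^ (2 / ((m : ℝ) + 1)) = (rdet X ^ (((m + 1 : ℕ) : ℝ)⁻¹)) ^ 2 := by
    rw [← Real.rpow_natCast (rdet X ^ _) 2, ← Real.rpow_mul h.le]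
    congr 1
    push_cast
    ring
  have e : frobSq X = (rdet X ^ (((m + 1 : ℕ) : ℝ)⁻¹)) ^ 2 *
      normSqSL (FA.SLnLattice.proj X) := by
    conv_lhs => rw [FA.SLnLattice.eq_smul_proj h]
    rw [normSqSL, ← frobSq_smul]
    rfl
  rw [hq, e, mul_comm R]
  exact (mul_le_mul_iff_of_pos_left (pow_pos (Real.rpow_pos_of_pos h _) 2)).symm

theorem ae_wt_ne_top : ∀ᵐ A : Fin m → Fin (m + 1) → ℝ, wt A ≠ ⊤ := by
  have h : ∫⁻ A : Fin m → Fin (m + 1) → ℝ,
      ENNReal.ofReal (Real.exp (-frobSq A)) * wt A ≠ ⊤ := by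
    show gaussWt m ≠ ⊤
    rw [gaussWt_eq]
    exact ENNReal.ofReal_ne_top
  filter_upwards [ae_lt_top ((continuous_frobSq.neg.rexp.measurable.ennreal_ofReal).fun_mul
    measurable_wt) h] with A hA htop
  rw [htop, ENNReal.mul_top (by simpa using Real.exp_pos _)] at hA
  exact lt_irrefl _ hA

theorem cr_pos {A : Fin m → Fin (m + 1) → ℝ} (h : wt A ≠ ⊤) : 0 < cr A :=
  lt_of_le_of_ne (cr_nonneg A) fun h' => h (by
    rw [wt, ← h', ENNReal.ofReal_zero, ENNReal.inv_zero])

/-- The normalised volume. -/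
def normVol (m : ℕ) (R : ℝ) : ℝ≥0∞ :=
  ∫⁻ A : Fin m → Fin (m + 1) → ℝ, wt A * ∫⁻ s in Ioc (0 : ℝ) 1, ENNReal.ofReal (ballVol m) *
    vfun m (s ^ (2 / ((m : ℝ) + 1)) - frobSq A - s ^ 2 / (R ^ (m + 1) * cr A ^ 2))

theorem volume_cone_ball [NeZero m] {R : ℝ} (hR : 0 < R) :
    volume (cone (ball (m + 1) R)) = ENNReal.ofReal (R ^ expo m) * normVol m R := by
  obtain ⟨t, ht, rfl⟩ : ∃ t, 0 < t ∧ R = t ^ 2 :=
    ⟨Real.sqrt R, Real.sqrt_pos.2 hR, (Real.sq_sqrt hR.le).symm⟩
  obtain ⟨e, he⟩ : ∃ e : ℝ, e = 2 / ((m : ℝ) + 1) := ⟨_, rfl⟩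
  have hSm : MeasurableSet {X : Rows (m + 1) | 0 < rdet X ∧ rdet X ≤ 1 ∧
      frobSq X ≤ t ^ 2 * rdet X ^ e} :=
    (measurableSet_lt measurable_const FA.SLnLattice.continuous_rdet.measurable).inter
      ((measurableSet_le FA.SLnLattice.continuous_rdet.measurable measurable_const).inter
        (measurableSet_le continuous_frobSq.measurable
          ((FA.SLnLattice.continuous_rdet.measurable.pow_const e).const_mul _)))
  rw [cone_ball, ← he, ← (volume_preserving_piFinSuccAbove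
    (fun _ : Fin (m + 1) => Fin (m + 1) → ℝ) 0).symm.measure_preimage hSm.nullMeasurableSet,
    Measure.volume_eq_prod, Measure.prod_apply_symm ((MeasurableEquiv.measurable _) hSm)]
  have hG : Measurable fun A : Fin m → Fin (m + 1) → ℝ => wt A * ∫⁻ s in Ioc (0 : ℝ) 1,
      ENNReal.ofReal (ballVol m) * vfun m (t ^ 2 * s ^ e - frobSq A - (s / cr A) ^ 2) := by
    refine measurable_wt.mul (Measurable.lintegral_prod_right' (f := fun p :
      (Fin m → Fin (m + 1) → ℝ) × ℝ => ENNReal.ofReal (ballVol m) *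
        vfun m (t ^ 2 * p.2 ^ e - frobSq p.1 - (p.2 / cr p.1) ^ 2)) ?_)
    exact measurable_const.mul (continuous_vfun.measurable.comp
      ((((measurable_snd.pow_const e).const_mul _).sub
        (continuous_frobSq.measurable.comp measurable_fst)).sub
        ((measurable_snd.div (continuous_cr.measurable.comp measurable_fst)).pow_const 2)))
  rw [lintegral_congr_ae (g := fun A : Fin m → Fin (m + 1) → ℝ => wt A * ∫⁻ s in Ioc (0 : ℝ) 1,
      ENNReal.ofReal (ballVol m) * vfun m (t ^ 2 * s ^ e - frobSq A - (s / cr A) ^ 2)),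
    lintegral_smul_rows ht hG]
  · rw [normVol, ← he]
    congr 1
    · rw [expo, ← Real.rpow_natCast t 2, ← Real.rpow_mul ht.le, ← Real.rpow_natCast]
      congr 2
      push_cast
      ring
    · refine lintegral_congr fun A => ?_
      have e2 : ∀ s, t ^ 2 * s ^ e - frobSq (t • A) - (s / cr (t • A)) ^ 2 =
          t ^ 2 * (s ^ e - frobSq A - s ^ 2 / ((t ^ 2) ^ (m + 1) * cr A ^ 2)) := fun s => by
        rw [frobSq_smul, cr_smul ht.le]
        field_simp
        ring
      simp only [e2, vfun_sq_mul ht.le, wt_smul ht, mul_left_comm (ENNReal.ofReal (ballVol m))]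
      rw [lintegral_const_mul' _ _ ENNReal.ofReal_ne_top, inv_pow_mul_cancel ht]
  · filter_upwards [ae_wt_ne_top (m := m)] with A hA
    have hv := volume_slice (cross A) (cr_pos hA) rfl (frobSq A) (t ^ 2)
    rw [← he] at hv
    rw [wt, ← hv]
    congr 1
    ext x
    simp only [Set.mem_preimage, MeasurableEquiv.piFinSuccAbove_symm_apply, Fin.insertNthEquiv,
      Equiv.coe_fn_mk, Fin.insertNth_zero', Set.mem_ofPred_eq]
    rw [show rdet (Fin.cons x A : Fin (m + 1) → Fin (m + 1) → ℝ) = cross A ⬝ᵥ x from det_cons x A,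
      frobSq_cons]

theorem tendsto_normVol [NeZero m] :
    Tendsto (normVol m) atTop (𝓝 (ENNReal.ofReal (ballConst (m + 1) / ((m : ℝ) + 1)))) := by
  obtain ⟨e, he⟩ : ∃ e : ℝ, e = 2 / ((m : ℝ) + 1) := ⟨_, rfl⟩
  have he0 : 0 ≤ e := by rw [he]; positivity
  have hcap : capInt m 1 ≠ ⊤ := by
    intro h
    have h' := ballVol_mul_capInt (m := m)
    rw [h, ENNReal.mul_top (by simpa using ballVol_pos m)] at h'
    exact ENNReal.ofReal_ne_top h'.symm
  have hcont : ∀ A : Fin m → Fin (m + 1) → ℝ, ∀ R : ℝ, Measurable fun s : ℝ =>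
      ENNReal.ofReal (ballVol m) * vfun m (s ^ e - frobSq A - s ^ 2 / (R ^ (m + 1) * cr A ^ 2)) :=
    fun A R => measurable_const.mul (continuous_vfun.measurable.comp (by fun_prop))
  have hbound : ∀ A : Fin m → Fin (m + 1) → ℝ, ∀ R : ℝ, 0 ≤ R → ∀ s ∈ Ioc (0 : ℝ) 1,
      ENNReal.ofReal (ballVol m) * vfun m (s ^ e - frobSq A - s ^ 2 / (R ^ (m + 1) * cr A ^ 2)) ≤
        ENNReal.ofReal (ballVol m) * vfun m (1 - frobSq A) := fun A R hR s hs => by
    gcongr
    refine vfun_mono ?_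
    have h1 : s ^ e ≤ 1 := Real.rpow_le_one hs.1.le hs.2 he0
    have h2 : 0 ≤ s ^ 2 / (R ^ (m + 1) * cr A ^ 2) := by positivity
    linarith
  have hlim : Tendsto (normVol m) atTop (𝓝 (∫⁻ A : Fin m → Fin (m + 1) → ℝ, wt A *
      ∫⁻ s in Ioc (0 : ℝ) 1, ENNReal.ofReal (ballVol m) * vfun m (s ^ e - frobSq A))) := by
    unfold normVol
    rw [← he]
    refine tendsto_lintegral_filter_of_dominated_convergence
      (fun A => ENNReal.ofReal (ballVol m) * (wt A * vfun m (1 - frobSq A))) ?_ ?_ ?_ ?_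
    · refine Eventually.of_forall fun R => measurable_wt.mul (Measurable.lintegral_prod_right'
        (f := fun p : (Fin m → Fin (m + 1) → ℝ) × ℝ => ENNReal.ofReal (ballVol m) *
          vfun m (p.2 ^ e - frobSq p.1 - p.2 ^ 2 / (R ^ (m + 1) * cr p.1 ^ 2))) ?_)
      exact measurable_const.mul (continuous_vfun.measurable.comp
        (((measurable_snd.pow_const e).sub (continuous_frobSq.measurable.comp measurable_fst)).sub
          ((measurable_snd.pow_const 2).div
            (((continuous_cr.measurable.comp measurable_fst).pow_const 2).const_mul _))))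
    · filter_upwards [eventually_ge_atTop (0 : ℝ)] with R hR
      refine Eventually.of_forall fun A => ?_
      rw [mul_left_comm]
      gcongr
      refine (setLIntegral_mono measurable_const (hbound A R hR)).trans ?_
      rw [setLIntegral_const, Real.volume_Ioc, sub_zero, ENNReal.ofReal_one, mul_one]
    · rw [lintegral_const_mul _ (measurable_wt_vfun 1)]
      exact ENNReal.mul_ne_top ENNReal.ofReal_ne_top hcap
    · filter_upwards [ae_wt_ne_top (m := m)] with A hA
      refine ENNReal.Tendsto.const_mul ?_ (Or.inr hA)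
      refine tendsto_lintegral_filter_of_dominated_convergence
        (fun _ => ENNReal.ofReal (ballVol m) * vfun m (1 - frobSq A))
        (Eventually.of_forall fun R => hcont A R) ?_ ?_ ?_
      · filter_upwards [eventually_ge_atTop (0 : ℝ)] with R hR
        exact (ae_restrict_mem measurableSet_Ioc).mono (hbound A R hR)
      · rw [setLIntegral_const, Real.volume_Ioc, sub_zero, ENNReal.ofReal_one, mul_one]
        exact ENNReal.mul_ne_top ENNReal.ofReal_ne_top ENNReal.ofReal_ne_top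
      · refine Eventually.of_forall fun s => ENNReal.Tendsto.const_mul ?_
          (Or.inr ENNReal.ofReal_ne_top)
        refine (continuous_vfun.tendsto _).comp ?_
        have h0 : Tendsto (fun R : ℝ => s ^ 2 / (R ^ (m + 1) * cr A ^ 2)) atTop (𝓝 0) :=
          ((tendsto_pow_atTop (Nat.succ_ne_zero m)).atTop_mul_const
            (pow_pos (cr_pos hA) 2)).const_div_atTop _
        simpa using (tendsto_const_nhds (x := s ^ e - frobSq A)).sub h0
  convert hlim using 2
  rw [lintegral_congr_ae (g := fun A : Fin m → Fin (m + 1) → ℝ => ∫⁻ s in Ioc (0 : ℝ) 1,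
      ENNReal.ofReal (ballVol m) * (wt A * vfun m (s ^ e - frobSq A))) (by
    filter_upwards [ae_wt_ne_top (m := m)] with A hA
    rw [← lintegral_const_mul' _ _ hA]
    simp only [mul_left_comm (wt A)]), lintegral_lintegral_swap (by
    exact (measurable_const.mul ((measurable_wt.comp measurable_fst).mul
      (continuous_vfun.measurable.comp ((measurable_snd.pow_const e).sub
        (continuous_frobSq.measurable.comp measurable_fst))))).aemeasurable)]
  have hs : ∀ s ∈ Ioc (0 : ℝ) 1, ∫⁻ A : Fin m → Fin (m + 1) → ℝ,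
      ENNReal.ofReal (ballVol m) * (wt A * vfun m (s ^ e - frobSq A)) =
        ENNReal.ofReal (ballConst (m + 1)) * ENNReal.ofReal (s ^ m) := by
    intro s hs
    rw [lintegral_const_mul _ (measurable_wt_vfun _), ← capInt, capInt_eq, ← mul_assoc,
      mul_right_comm, ballVol_mul_capInt, max_eq_left (Real.rpow_nonneg hs.1.le _),
      ← Real.rpow_mul hs.1.le, ← Real.rpow_natCast s m]
    congr 3
    rw [he, expo]
    field_simp
  rw [setLIntegral_congr_fun measurableSet_Ioc hs, lintegral_const_mul _ (by fun_prop),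
    lintegral_ofReal_eq (c := 1 / ((m : ℝ) + 1)) ?_ ?_ ?_,
    ← ENNReal.ofReal_mul (ballConst_pos (by omega)).le, mul_one_div]
  · exact (continuous_pow m).integrableOn_Ioc
  · exact (ae_restrict_mem measurableSet_Ioc).mono fun s hs => pow_nonneg hs.1.le m
  · rw [← intervalIntegral.integral_of_le zero_le_one, integral_pow]
    simp

/-- **The volume of balls in `SL n ℝ`.** -/
theorem tendsto_measureReal_ball {n : ℕ} (hn : 2 ≤ n) [MeasurableSpace (SLR n)]
    [BorelSpace (SLR n)] :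
    Tendsto (fun R => (coneMeasure n).real (ball n R) / R ^ (((n : ℝ) ^ 2 - n) / 2)) atTop
      (𝓝 (ballConst n / n)) := by
  obtain ⟨k, rfl⟩ : ∃ k, n = k + 1 + 1 := ⟨n - 2, by omega⟩
  have h := (ENNReal.tendsto_toReal ENNReal.ofReal_ne_top).comp
    (tendsto_normVol (m := k + 1))
  rw [ENNReal.toReal_ofReal (div_nonneg (ballConst_pos (by omega)).le (by positivity))] at h
  refine (h.congr' ?_).trans (by rw [Nat.cast_add_one (k + 1)])
  filter_upwards [eventually_gt_atTop (0 : ℝ)] with R hR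
  rw [Function.comp_apply, measureReal_def, FA.SLnLattice.coneMeasure_apply
    (show MeasurableSet (ball (k + 1 + 1) R) from
      (isClosed_le continuous_normSqSL continuous_const).measurableSet), volume_cone_ball hR,
    ENNReal.toReal_mul, ENNReal.toReal_ofReal (Real.rpow_nonneg hR.le _),
    show (((k + 1 + 1 : ℕ) : ℝ) ^ 2 - ((k + 1 + 1 : ℕ) : ℝ)) / 2 = expo (k + 1) by
      rw [expo]; push_cast; ring,
    mul_div_cancel_left₀ _ (Real.rpow_pos_of_pos hR _).ne']

end FA.SLnCount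

end
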