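import Fermat.Agent.SLnCount.BallVolume
import Fermat.Agent.SLnMixing.Mixing
import Fermat.Agent.SLnVolume.Volume

/-!
# Counting integral matrices of determinant one

The average over a ball of `ν (A ∩ g • A)`, for a small set `A` of lattices, tends to `ν A ^ 2`
by mixing, and unfolds to a count of the integral matrices in a slightly distorted ball.
-/

set_option autoImplicit false

noncomputable section

open MeasureTheory Matrix Set Filter Topology
open scoped ENNReal Pointwise
open FA.SLnLattice FA.SLnVolume FA.SLnMixing FA.SiegelMean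

namespace FA.SLnCount

variable {n : ℕ}

/-- The squared norm of a matrix. -/
def matSq (M : Matrix (Fin n) (Fin n) ℝ) : ℝ := ∑ i, ∑ j, M i j ^ 2

theorem normSqSL_eq (g : SLR n) : normSqSL g = matSq g.1 := by
  simp [normSqSL, frobSq, matSq, dotProduct, sq]

theorem matSq_nonneg (M : Matrix (Fin n) (Fin n) ℝ) : 0 ≤ matSq M :=
  Finset.sum_nonneg fun _ _ => Finset.sum_nonneg fun _ _ => sq_nonneg _

theorem matSq_mul (M N : Matrix (Fin n) (Fin n) ℝ) : matSq (M * N) ≤ matSq M * matSq N := by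
  calc matSq (M * N) ≤ ∑ i, ∑ j, (∑ k, M i k ^ 2) * ∑ k, N k j ^ 2 :=
        Finset.sum_le_sum fun i _ => Finset.sum_le_sum fun j _ => by
          rw [Matrix.mul_apply]
          exact Finset.sum_mul_sq_le_sq_mul_sq _ _ _
    _ = matSq M * matSq N := by
        rw [matSq, matSq, Finset.sum_comm (f := fun i j => N i j ^ 2), Finset.sum_mul]
        simp only [← Finset.mul_sum]

theorem matSq_add_le (M N : Matrix (Fin n) (Fin n) ℝ) {d : ℝ} (hd : 0 < d) :
    matSq (M + N) ≤ (1 + d) * matSq M + (1 + d⁻¹) * matSq N := by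
  simp only [matSq, Finset.mul_sum, ← Finset.sum_add_distrib]
  refine Finset.sum_le_sum fun i _ => Finset.sum_le_sum fun j _ => ?_
  have h : 0 ≤ (d * M i j - N i j) ^ 2 / d := by positivity
  have e : (1 + d) * M i j ^ 2 + (1 + d⁻¹) * N i j ^ 2 - (M i j + N i j) ^ 2 =
      (d * M i j - N i j) ^ 2 / d := by
    field_simp
    ring
  rw [Matrix.add_apply]
  linarith

/-- The matrices distorting norms by at most `(1 + d) ^ 2`. -/
def nearOne (n : ℕ) (d : ℝ) : Set (SLR n) :=
  {u | matSq (u.1 - 1) < d ^ 2 ∧ matSq ((u⁻¹ : SLR n).1 - 1) < d ^ 2}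

theorem continuous_matSq_sub {f : SLR n → SLR n} (hf : Continuous f) :
    Continuous fun u : SLR n => matSq ((f u).1 - 1) := by
  unfold matSq
  exact continuous_finsetSum _ fun i _ => continuous_finsetSum _ fun j _ =>
    (((continuous_subtype_val.comp hf).matrix_elem i j).sub continuous_const).pow 2

theorem isOpen_nearOne (d : ℝ) : IsOpen (nearOne n d) :=
  (isOpen_lt (continuous_matSq_sub continuous_id) continuous_const).inter
    (isOpen_lt (continuous_matSq_sub continuous_inv) continuous_const)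

theorem one_mem_nearOne {d : ℝ} (hd : 0 < d) : (1 : SLR n) ∈ nearOne n d := by
  simp [nearOne, matSq, hd]

theorem inv_mem_nearOne {d : ℝ} {u : SLR n} (hu : u ∈ nearOne n d) : u⁻¹ ∈ nearOne n d :=
  ⟨hu.2, by rw [inv_inv]; exact hu.1⟩

theorem normSqSL_mul_left {d : ℝ} (hd : 0 < d) {u : SLR n} (hu : u ∈ nearOne n d) (g : SLR n) :
    normSqSL (u * g) ≤ (1 + d) ^ 2 * normSqSL g := by
  rw [normSqSL_eq, normSqSL_eq, Matrix.SpecialLinearGroup.coe_mul,
    show u.1 * g.1 = g.1 + (u.1 - 1) * g.1 by rw [sub_mul, one_mul, add_sub_cancel]]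
  refine (matSq_add_le _ _ hd).trans ?_
  have h : (1 + d⁻¹) * matSq ((u.1 - 1) * g.1) ≤ (1 + d⁻¹) * (d ^ 2 * matSq g.1) :=
    mul_le_mul_of_nonneg_left ((matSq_mul _ _).trans
      (mul_le_mul_of_nonneg_right hu.1.le (matSq_nonneg _))) (by positivity)
  have e : (1 + d⁻¹) * d ^ 2 = d ^ 2 + d := by field_simp
  rw [← mul_assoc _ (d ^ 2), e] at h
  nlinarith

theorem normSqSL_mul_right {d : ℝ} (hd : 0 < d) {u : SLR n} (hu : u ∈ nearOne n d) (g : SLR n) :
    normSqSL (g * u) ≤ (1 + d) ^ 2 * normSqSL g := by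
  rw [normSqSL_eq, normSqSL_eq, Matrix.SpecialLinearGroup.coe_mul,
    show g.1 * u.1 = g.1 + g.1 * (u.1 - 1) by rw [mul_sub, mul_one, add_sub_cancel]]
  refine (matSq_add_le _ _ hd).trans ?_
  have h : (1 + d⁻¹) * matSq (g.1 * (u.1 - 1)) ≤ (1 + d⁻¹) * (matSq g.1 * d ^ 2) :=
    mul_le_mul_of_nonneg_left ((matSq_mul _ _).trans
      (mul_le_mul_of_nonneg_left hu.1.le (matSq_nonneg _))) (by positivity)
  have e : (1 + d⁻¹) * d ^ 2 = d ^ 2 + d := by field_simp
  rw [mul_comm (matSq g.1), ← mul_assoc _ (d ^ 2), e] at h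
  nlinarith

theorem normSqSL_sandwich {d : ℝ} (hd : 0 < d) {u v : SLR n} (hu : u ∈ nearOne n d)
    (hv : v ∈ nearOne n d) (g : SLR n) :
    normSqSL (u * g * v) ≤ (1 + d) ^ 4 * normSqSL g :=
  (normSqSL_mul_right hd hv _).trans ((mul_le_mul_of_nonneg_left (normSqSL_mul_left hd hu g)
    (sq_nonneg _)).trans_eq (by ring))

theorem isCompact_ball (R : ℝ) : IsCompact (ball n R) := by
  have hbox : IsCompact (Set.univ.pi fun _ : Fin n => Set.univ.pi fun _ : Fin n =>
      Set.Icc (-Real.sqrt R) (Real.sqrt R) : Set (Matrix (Fin n) (Fin n) ℝ)) :=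
    isCompact_univ_pi fun _ => isCompact_univ_pi fun _ => isCompact_Icc
  refine ((Matrix.SpecialLinearGroup.isClosedEmbedding_val (n := Fin n)
    (R := ℝ)).isCompact_preimage hbox).of_isClosed_subset
      (isClosed_le continuous_normSqSL continuous_const) ?_
  intro g hg i _ j _
  refine abs_le.1 (Real.abs_le_sqrt ?_)
  have hg' : matSq g.1 ≤ R := (normSqSL_eq g).symm.trans_le hg
  exact (Finset.single_le_sum (f := fun b => g.1 i b ^ 2) (fun b _ => sq_nonneg _)
    (Finset.mem_univ j)).trans ((Finset.single_le_sum (f := fun a => ∑ b, g.1 a b ^ 2)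
      (fun a _ => Finset.sum_nonneg fun b _ => sq_nonneg _) (Finset.mem_univ i)).trans hg')

/-- The integral matrices in a ball. -/
def intBall (n : ℕ) (R : ℝ) : Set (Matrix.SpecialLinearGroup (Fin n) ℤ) :=
  {δ | normSqSL (castSL δ) ≤ R}

theorem finite_intBall (R : ℝ) : (intBall n R).Finite := by
  obtain ⟨B, hB⟩ : ∃ B : ℤ, B = ⌈Real.sqrt R⌉ := ⟨_, rfl⟩
  refine ((Set.Finite.pi fun _ : Fin n => Set.Finite.pi fun _ : Fin n =>
    Set.finite_Icc (-B) B).subset ?_).of_finite_image (f := fun δ => fun i j => δ i j)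
      fun a _ b _ h => Subtype.ext (Matrix.ext fun i j => congrFun (congrFun h i) j)
  rintro _ ⟨δ, hδ, rfl⟩ i _ j _
  rw [intBall, Set.mem_ofPred_eq, normSqSL_eq] at hδ
  have h : ((δ i j : ℤ) : ℝ) ^ 2 ≤ R :=
    (Finset.single_le_sum (f := fun b => (castSL δ).1 i b ^ 2) (fun b _ => sq_nonneg _)
      (Finset.mem_univ j)).trans ((Finset.single_le_sum (f := fun a => ∑ b, (castSL δ).1 a b ^ 2)
        (fun a _ => Finset.sum_nonneg fun b _ => sq_nonneg _) (Finset.mem_univ i)).trans hδ)
  have h' := abs_le.1 (Real.abs_le_sqrt h)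
  have hc : Real.sqrt R ≤ (B : ℝ) := hB ▸ Int.le_ceil _
  constructor
  · exact Int.cast_le.1 (show ((-B : ℤ) : ℝ) ≤ ((δ i j : ℤ) : ℝ) by push_cast; linarith)
  · exact Int.cast_le.1 (show ((δ i j : ℤ) : ℝ) ≤ ((B : ℤ) : ℝ) by linarith)

/-- The integral matrices whose translate by `h` lies in a ball. -/
def intBallAt (h : SLR n) (R : ℝ) : Set (Matrix.SpecialLinearGroup (Fin n) ℤ) :=
  {δ | normSqSL (castSL δ * h) ≤ R}

theorem intBallAt_one (R : ℝ) : intBallAt (1 : SLR n) R = intBall n R := by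
  simp only [intBallAt, intBall, mul_one]

theorem finite_intBallAt (h : SLR n) (R : ℝ) : (intBallAt h R).Finite := by
  refine (finite_intBall (R * normSqSL h⁻¹)).subset fun δ hδ => ?_
  have e : castSL δ = castSL δ * h * h⁻¹ := by group
  rw [intBall, Set.mem_ofPred_eq, e, normSqSL_eq, Matrix.SpecialLinearGroup.coe_mul]
  refine (matSq_mul _ _).trans ?_
  rw [← normSqSL_eq, ← normSqSL_eq]
  exact mul_le_mul_of_nonneg_right hδ ((normSqSL_eq h⁻¹).symm ▸ matSq_nonneg _)

/-- A small symmetric neighbourhood of `1` which meets no translate of itself. -/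
theorem exists_small_nhds {d : ℝ} (hd : 0 < d) (h : SLR n) :
    ∃ V : Set (SLR n), IsOpen V ∧ 1 ∈ V ∧ V ⊆ nearOne n d ∧
      (∀ v ∈ V, h⁻¹ * v * h ∈ nearOne n d) ∧
      ∀ u ∈ V, ∀ v ∈ V, u * v⁻¹ ∈ Gamma n → u = v := by
  obtain ⟨U, hU, hU1, hsep⟩ := exists_nhds_separated (n := n)
  refine ⟨nearOne n d ∩ (fun v => h⁻¹ * v * h) ⁻¹' nearOne n d ∩ U,
    ((isOpen_nearOne d).inter ((isOpen_nearOne d).preimage (by fun_prop))).inter hU,
    ⟨⟨one_mem_nearOne hd, ?_⟩, hU1⟩, fun v hv => hv.1.1, fun v hv => hv.1.2,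
    fun u hu v hv h => hsep u hu.2 v hv.2 h⟩
  rw [Set.mem_preimage, mul_one, inv_mul_cancel]
  exact one_mem_nearOne hd

/-- The integral matrices index the group `Gamma n`, by inverses. -/
def invCast (δ : Matrix.SpecialLinearGroup (Fin n) ℤ) : Gamma n :=
  ⟨castSL δ⁻¹, δ⁻¹, rfl⟩

theorem invCast_bijective : Function.Bijective (invCast (n := n)) := by
  refine ⟨fun a b h => inv_injective (castSL_injective (congrArg Subtype.val h)), fun γ => ?_⟩
  obtain ⟨δ, hδ⟩ := γ.2
  exact ⟨δ⁻¹, Subtype.ext ((congrArg castSL (inv_inv δ)).trans hδ)⟩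

theorem coe_invCast (δ : Matrix.SpecialLinearGroup (Fin n) ℤ) :
    ((invCast δ : Gamma n) : SLR n) = (castSL δ)⁻¹ :=
  map_inv (Matrix.SpecialLinearGroup.map (Int.castRingHom ℝ)) δ

variable [MeasurableSpace (SLR n)] [BorelSpace (SLR n)] [NeZero n]

theorem covol_eq : coneMeasure n (fundSet n) = ENNReal.ofReal (zetaProd n / n) := by
  obtain ⟨E, hEm, hEu⟩ := exists_fundamentalDomain (n := n)
  rw [fundSet_spec.2.1.measure_eq (IsFundamentalDomain.mk' hEm.nullMeasurableSet hEu),
    coneMeasure_apply hEm, volume_cone_eq hEm hEu]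

omit [BorelSpace (SLR n)] [NeZero n] in
/-- The pairs of points of `V` joined by `g` and `γ`. -/
theorem measurableSet_pairs [BorelSpace (SLR n)] {V : Set (SLR n)} (hV : IsOpen V) (γ : Gamma n) :
    MeasurableSet {p : SLR n × SLR n | p.2 ∈ V ∧ (γ : SLR n) * (p.2 * p.1) ∈ V} :=
  ((hV.preimage continuous_snd).inter (hV.preimage
    (continuous_const.mul (continuous_snd.mul continuous_fst)))).measurableSet

variable {V : Set (SLR n)}

theorem latMeasure_overlap (hV : IsOpen V)
    (hsep : ∀ u ∈ V, ∀ v ∈ V, u * v⁻¹ ∈ Gamma n → u = v) (g : SLR n) :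
    MeasurableSet (toLattice '' V : Set (Lattices n)) ∧
    latMeasure n (toLattice '' V) = (coneMeasure n (fundSet n))⁻¹ * coneMeasure n V ∧
    latMeasure n (toLattice '' V ∩ g • (toLattice '' V)) = (coneMeasure n (fundSet n))⁻¹ *
      ∑' γ : Gamma n, coneMeasure n {x | x ∈ V ∧ (γ : SLR n) * (x * g) ∈ V} := by
  have hAo : IsOpen (toLattice '' V : Set (Lattices n)) := by
    have e : (toLattice '' V : Set (Lattices n)) =
        (QuotientGroup.mk : SLR n → Lattices n) '' ((fun x => x⁻¹) '' V) := by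
      rw [Set.image_image]
      rfl
    rw [e]
    exact QuotientGroup.isOpenMap_coe _ ((Homeomorph.inv (SLR n)).isOpenMap _ hV)
  have hrel : ∀ {u v : SLR n}, toLattice u = toLattice v → u * v⁻¹ ∈ Gamma n := fun {u v} h => by
    have h' : (u⁻¹)⁻¹ * v⁻¹ ∈ Gamma n := QuotientGroup.eq.1 h
    rwa [inv_inv] at h'
  have hinj : ∀ (γ δ : Gamma n) (y : SLR n), (γ : SLR n) * y ∈ V → (δ : SLR n) * y ∈ V →
      γ = δ := fun γ δ y hγ hδ => by
    refine Subtype.ext (mul_right_cancel (hsep _ hγ _ hδ ?_))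
    rw [show (γ : SLR n) * y * ((δ : SLR n) * y)⁻¹ = ((γ * δ⁻¹ : Gamma n) : SLR n) by
      push_cast; group]
    exact (γ * δ⁻¹).2
  have hsmall : ∀ B : Set (Lattices n), MeasurableSet B → B ⊆ toLattice '' V →
      latMeasure n B =
        (coneMeasure n (fundSet n))⁻¹ * coneMeasure n (toLattice ⁻¹' B ∩ V) := by
    intro B hB hBA
    rw [latMeasure_apply hB]
    congr 1
    obtain ⟨hEm, hE, -, -⟩ := fundSet_spec (n := n)
    have hSm : MeasurableSet (toLattice ⁻¹' B ∩ V) :=
      (measurable_toLattice hB).inter hV.measurableSet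
    rw [hE.measure_eq_tsum (toLattice ⁻¹' B ∩ V), ← measure_iUnion (fun γ δ hγδ => ?_)
      fun γ => (hSm.const_smul γ).inter hEm, ← Set.iUnion_inter]
    · congr 2
      ext x
      simp only [Set.mem_iUnion, Set.mem_smul_set_iff_inv_smul_mem, Set.mem_inter_iff,
        Set.mem_preimage, toLattice_smul]
      refine ⟨fun hx => ?_, fun ⟨_, h, _⟩ => h⟩
      obtain ⟨v, hv, hvx⟩ := hBA hx
      refine ⟨(⟨v * x⁻¹, hrel hvx⟩ : Gamma n)⁻¹, hx, ?_⟩
      rw [inv_inv]
      show v * x⁻¹ * x ∈ V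
      rwa [inv_mul_cancel_right]
    · refine Set.disjoint_left.2 fun x hxγ hxδ => hγδ ?_
      exact inv_injective (hinj γ⁻¹ δ⁻¹ x (Set.mem_smul_set_iff_inv_smul_mem.1 hxγ.1).2
        (Set.mem_smul_set_iff_inv_smul_mem.1 hxδ.1).2)
  refine ⟨hAo.measurableSet, ?_, ?_⟩
  · rw [hsmall _ hAo.measurableSet subset_rfl,
      Set.inter_eq_right.2 (Set.subset_preimage_image _ _)]
  · have hgA : MeasurableSet (g • (toLattice '' V : Set (Lattices n))) :=
      (hAo.smul g).measurableSet
    rw [hsmall _ (hAo.measurableSet.inter hgA) Set.inter_subset_left]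
    congr 1
    rw [← measure_iUnion (f := fun γ : Gamma n => {x | x ∈ V ∧ (γ : SLR n) * (x * g) ∈ V})
      (fun γ δ hγδ => Set.disjoint_left.2 fun x hxγ hxδ => hγδ (hinj γ δ _ hxγ.2 hxδ.2))
      fun γ => (measurableSet_pairs hV γ).preimage
        (measurable_const.prodMk measurable_id : Measurable fun x : SLR n => (g, x))]
    congr 1
    ext x
    simp only [Set.mem_inter_iff, Set.mem_preimage, Set.mem_iUnion, Set.mem_ofPred_eq,
      Set.mem_smul_set_iff_inv_smul_mem, smul_toLattice, inv_inv]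
    refine ⟨fun ⟨⟨_, v, hv, hvx⟩, hx⟩ => ⟨⟨v * (x * g)⁻¹, hrel hvx⟩, hx, ?_⟩,
      fun ⟨γ, hx, hγ⟩ => ⟨⟨⟨x, hx, rfl⟩, (γ : SLR n) * (x * g), hγ, toLattice_smul γ _⟩, hx⟩⟩
    rwa [inv_mul_cancel_right]

/-- **The unfolding.** -/
theorem unfold_bounds {d : ℝ} (hd : 0 < d) (h : SLR n) (hV : IsOpen V) (hVd : V ⊆ nearOne n d)
    (hVh : ∀ v ∈ V, h⁻¹ * v * h ∈ nearOne n d)
    (hsep : ∀ u ∈ V, ∀ v ∈ V, u * v⁻¹ ∈ Gamma n → u = v) (R : ℝ) :
    (coneMeasure n (fundSet n))⁻¹ *
        ((intBallAt h (R / (1 + d) ^ 4)).ncard * (coneMeasure n V * coneMeasure n V)) ≤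
      ∫⁻ g in ball n R, latMeasure n (toLattice '' V ∩ (g * h⁻¹) • (toLattice '' V))
        ∂coneMeasure n ∧
    ∫⁻ g in ball n R, latMeasure n (toLattice '' V ∩ (g * h⁻¹) • (toLattice '' V))
        ∂coneMeasure n ≤
      (coneMeasure n (fundSet n))⁻¹ *
        ((intBallAt h ((1 + d) ^ 4 * R)).ncard * (coneMeasure n V * coneMeasure n V)) := by
  obtain ⟨S, hS⟩ : ∃ S : Set (SLR n), S = (· * h) ⁻¹' ball n R := ⟨_, rfl⟩
  have hSm : MeasurableSet S :=
    hS ▸ (isCompact_ball R).measurableSet.preimage (continuous_mul_const h).measurable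
  have hchange : ∫⁻ g in ball n R, latMeasure n (toLattice '' V ∩ (g * h⁻¹) • (toLattice '' V))
      ∂coneMeasure n =
      ∫⁻ g in S, latMeasure n (toLattice '' V ∩ g • (toLattice '' V)) ∂coneMeasure n := by
    rw [hS, ← (measurePreserving_mul_right (coneMeasure n) h).setLIntegral_comp_preimage_emb
      (Homeomorph.mulRight h).measurableEmbedding
      (fun g => latMeasure n (toLattice '' V ∩ (g * h⁻¹) • (toLattice '' V))) (ball n R)]
    simp only [mul_inv_cancel_right]
  rw [hchange]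
  obtain ⟨μ, hμ⟩ : ∃ μ : Measure (SLR n), μ = coneMeasure n := ⟨_, rfl⟩
  haveI : μ.IsMulLeftInvariant := hμ ▸ inferInstance
  haveI : SFinite μ := hμ ▸ inferInstance
  obtain ⟨f, hf⟩ : ∃ f : Matrix.SpecialLinearGroup (Fin n) ℤ → ℝ≥0∞, f = fun δ =>
      ∫⁻ g in S, μ {x | x ∈ V ∧ ((invCast δ : Gamma n) : SLR n) * (x * g) ∈ V} ∂μ :=
    ⟨_, rfl⟩
  have hI : ∫⁻ g in S, latMeasure n (toLattice '' V ∩ g • (toLattice '' V)) ∂coneMeasure n =
      (coneMeasure n (fundSet n))⁻¹ * ∑' δ, f δ := by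
    simp only [fun g => (latMeasure_overlap hV hsep g).2.2]
    rw [lintegral_const_mul' _ _ (ENNReal.inv_ne_top.2 fundSet_spec.2.2.1.ne'),
      lintegral_tsum fun γ => ?_, hf,
      ← Equiv.tsum_eq (Equiv.ofBijective _ (invCast_bijective (n := n))), hμ]
    · rfl
    · exact (measurable_measure_prodMk_left (measurableSet_pairs hV γ)).aemeasurable
  have hswap : ∀ δ, f δ = ∫⁻ x, (μ.restrict S)
      {g | x ∈ V ∧ ((invCast δ : Gamma n) : SLR n) * (x * g) ∈ V} ∂μ := by
    intro δ
    simp only [hf]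
    exact (Measure.prod_apply (measurableSet_pairs hV _)).symm.trans
      (Measure.prod_apply_symm (measurableSet_pairs hV _))
  have htot : ∀ (δ : Matrix.SpecialLinearGroup (Fin n) ℤ) (x : SLR n),
      μ {g | ((invCast δ : Gamma n) : SLR n) * (x * g) ∈ V} = μ V := by
    intro δ x
    simp only [← mul_assoc]
    exact measure_preimage_mul μ _ V
  have hle : ∀ δ, f δ ≤ μ V * μ V := by
    intro δ
    rw [hswap, ← lintegral_indicator_const hV.measurableSet (μ V)]
    refine lintegral_mono fun x => ?_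
    by_cases hx : x ∈ V
    · rw [Set.indicator_of_mem hx, ← htot δ x]
      exact (Measure.le_iff'.1 Measure.restrict_le_self _).trans (measure_mono fun g hg => hg.2)
    · rw [Set.indicator_of_notMem hx]
      simp [hx]
  have hfull : ∀ δ ∈ intBallAt h (R / (1 + d) ^ 4), f δ = μ V * μ V := by
    intro δ hδ
    rw [hswap, ← lintegral_indicator_const hV.measurableSet (μ V)]
    refine lintegral_congr fun x => ?_
    by_cases hx : x ∈ V
    · rw [Set.indicator_of_mem hx, Measure.restrict_eq_self _ ?_, ← htot δ x]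
      · simp [hx]
      · intro g hg
        have hg2 := hg.2
        rw [coe_invCast] at hg2
        have e : g = x⁻¹ * castSL δ * ((castSL δ)⁻¹ * (x * g)) := by group
        rw [hS, Set.mem_preimage, ball, Set.mem_ofPred_eq, e,
          show ∀ u v : SLR n, x⁻¹ * u * v * h = x⁻¹ * (u * h) * (h⁻¹ * v * h) from
            fun u v => by group]
        exact (normSqSL_sandwich hd (inv_mem_nearOne (hVd hx)) (hVh _ hg2) _).trans
          ((le_div_iff₀' (by positivity)).1 hδ)
    · rw [Set.indicator_of_notMem hx]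
      simp [hx]
  have hzero : ∀ δ, δ ∉ intBallAt h ((1 + d) ^ 4 * R) → f δ = 0 := by
    intro δ hδ
    rw [hswap]
    refine lintegral_eq_zero_of_ae_eq_zero (Eventually.of_forall fun x => ?_)
    show (μ.restrict S) _ = 0
    rw [Measure.restrict_apply' hSm]
    refine measure_mono_null (fun g hg => hδ ?_) measure_empty
    obtain ⟨⟨hx, hv⟩, hgB⟩ := hg
    rw [coe_invCast] at hv
    have e : castSL δ = x * g * ((castSL δ)⁻¹ * (x * g))⁻¹ := by group
    rw [intBallAt, Set.mem_ofPred_eq, e, show ∀ v : SLR n,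
      x * g * v⁻¹ * h = x * (g * h) * (h⁻¹ * v * h)⁻¹ from fun v => by group]
    rw [hS] at hgB
    exact (normSqSL_sandwich hd (hVd hx) (inv_mem_nearOne (hVh _ hv)) _).trans
      (mul_le_mul_of_nonneg_left hgB (by positivity))
  rw [hI, ← hμ]
  constructor
  · gcongr
    rw [Set.ncard_eq_toFinset_card _ (finite_intBallAt h _), ← nsmul_eq_mul, ← Finset.sum_const,
      ← Finset.sum_congr rfl fun δ hδ => hfull δ ((finite_intBallAt h _).mem_toFinset.1 hδ)]
    exact ENNReal.sum_le_tsum _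
  · gcongr
    rw [tsum_eq_sum (s := (finite_intBallAt h ((1 + d) ^ 4 * R)).toFinset) fun δ hδ =>
      hzero δ fun hmem => hδ ((finite_intBallAt h _).mem_toFinset.2 hmem),
      Set.ncard_eq_toFinset_card _ (finite_intBallAt h _), ← nsmul_eq_mul, ← Finset.sum_const]
    exact Finset.sum_le_sum fun δ _ => hle δ

theorem tendsto_ball_atTop (hn : 2 ≤ n) :
    Tendsto (fun R => (coneMeasure n).real (ball n R)) atTop atTop := by
  have hn' : (2 : ℝ) ≤ n := Nat.ofNat_le_cast.2 hn
  have hp : (0 : ℝ) < ((n : ℝ) ^ 2 - n) / 2 := by nlinarith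
  have hC : 0 < ballConst n / n :=
    div_pos (ballConst_pos (by omega)) (by linarith)
  refine (((tendsto_rpow_atTop hp).atTop_mul_pos hC (tendsto_measureReal_ball hn))).congr' ?_
  filter_upwards [eventually_gt_atTop (0 : ℝ)] with R hR
  exact mul_div_cancel₀ _ (Real.rpow_pos_of_pos hR _).ne'

/-- The averages over balls of a function with a limit at infinity. -/
theorem tendsto_ball_average (hn : 2 ≤ n) {f : SLR n → ℝ} (hf : Measurable f)
    (h1 : ∀ g, |f g| ≤ 1) {L : ℝ} (hL : Tendsto f (cocompact (SLR n)) (𝓝 L)) :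
    Tendsto (fun R => (∫ g in ball n R, f g ∂coneMeasure n) / (coneMeasure n).real (ball n R))
      atTop (𝓝 L) := by
  rw [Metric.tendsto_nhds]
  intro ε hε
  obtain ⟨K, hK, hKf⟩ := (hasBasis_cocompact.eventually_iff).1
    (Metric.tendsto_nhds.1 hL (ε / 2) (half_pos hε))
  filter_upwards [(tendsto_ball_atTop hn).eventually_gt_atTop
      (max 0 ((1 + |L|) * (coneMeasure n).real K / (ε / 2)))] with R hR
  have hM : 0 < (coneMeasure n).real (ball n R) := (le_max_left _ _).trans_lt hR
  have hfin : coneMeasure n (ball n R) ≠ ⊤ := (isCompact_ball R).measure_lt_top.ne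
  haveI : IsFiniteMeasure ((coneMeasure n).restrict (ball n R)) := isFiniteMeasure_restrict.2 hfin
  have hint : Integrable f ((coneMeasure n).restrict (ball n R)) :=
    Integrable.of_bound hf.aestronglyMeasurable 1 (Eventually.of_forall h1)
  have hb : ∀ g, |f g - L| ≤ ε / 2 + K.indicator (fun _ => 1 + |L|) g := by
    intro g
    by_cases hg : g ∈ K
    · rw [Set.indicator_of_mem hg]
      linarith [(abs_sub _ _).trans (add_le_add (h1 g) le_rfl : |f g| + |L| ≤ 1 + |L|)]
    · rw [Set.indicator_of_notMem hg, add_zero]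
      exact (hKf hg).le
  have hind : Integrable (K.indicator fun _ => 1 + |L|) ((coneMeasure n).restrict (ball n R)) :=
    (integrable_const _).indicator hK.measurableSet
  have hkey : |∫ g in ball n R, (f g - L) ∂coneMeasure n| ≤
      ε / 2 * (coneMeasure n).real (ball n R) + (1 + |L|) * (coneMeasure n).real K := by
    refine (abs_integral_le_integral_abs).trans ((integral_mono
      (hint.sub (integrable_const L)).abs ((integrable_const _).add hind) hb).trans ?_)
    rw [integral_add' (integrable_const _) hind, setIntegral_const,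
      integral_indicator_const _ hK.measurableSet, smul_eq_mul, smul_eq_mul,
      mul_comm ((coneMeasure n).real _), mul_comm (((coneMeasure n).restrict _).real K)]
    refine add_le_add le_rfl (mul_le_mul_of_nonneg_left ?_ (by positivity))
    exact ENNReal.toReal_mono hK.measure_lt_top.ne (Measure.le_iff'.1 Measure.restrict_le_self K)
  rw [integral_sub hint (integrable_const L), setIntegral_const, smul_eq_mul] at hkey
  rw [Real.dist_eq, div_sub' hM.ne', abs_div, abs_of_pos hM, div_lt_iff₀ hM]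
  have h2 : (1 + |L|) * (coneMeasure n).real K < ε / 2 * (coneMeasure n).real (ball n R) := by
    have h3 := (le_max_right _ _).trans_lt hR
    rwa [div_lt_iff₀' (half_pos hε)] at h3
  linarith

/-- **The theorem of Duke, Rudnick and Sarnak.** -/
theorem tendsto_intBallAt (hn : 2 ≤ n) (h : SLR n) :
    Tendsto (fun R => ((intBallAt h R).ncard : ℝ) / R ^ (((n : ℝ) ^ 2 - n) / 2)) atTop
      (𝓝 (ballConst n / zetaProd n)) := by
  obtain ⟨p, hp⟩ : ∃ p : ℝ, p = ((n : ℝ) ^ 2 - n) / 2 := ⟨_, rfl⟩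
  rw [← hp]
  have hnpos : (0 : ℝ) < n := by
    have := NeZero.pos n
    exact Nat.cast_pos.2 this
  have hz := zetaProd_pos n
  obtain ⟨c, hc⟩ : ∃ c : ℝ, c = zetaProd n / n := ⟨_, rfl⟩
  have hcpos : 0 < c := by rw [hc]; positivity
  obtain ⟨K₀, hK₀⟩ : ∃ K₀ : ℝ, K₀ = ballConst n / zetaProd n := ⟨_, rfl⟩
  rw [← hK₀]
  have key : ∀ d : ℝ, 0 < d → ∀ η : ℝ, 0 < η → ∀ᶠ R in atTop,
      ((intBallAt h R).ncard : ℝ) / R ^ p ≤ ((1 + d) ^ 4) ^ p * (K₀ + η) ∧
      (K₀ - η) / ((1 + d) ^ 4) ^ p ≤ ((intBallAt h R).ncard : ℝ) / R ^ p := by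
    intro d hd η hη
    obtain ⟨V, hV, hV1, hVd, hVh, hsep⟩ := exists_small_nhds (n := n) hd h
    obtain ⟨k, hk⟩ : ∃ k : ℝ, k = (1 + d) ^ 4 := ⟨_, rfl⟩
    have hkpos : 0 < k := by rw [hk]; positivity
    rw [← hk]
    have hVfin : coneMeasure n V ≠ ⊤ := by
      refine (lt_of_le_of_lt (measure_mono fun u hu => ?_)
        (isCompact_ball (n := n) ((1 + d) ^ 2 * normSqSL (1 : SLR n))).measure_lt_top).ne
      have h' := normSqSL_mul_left hd (hVd hu) 1
      rwa [mul_one] at h'
    obtain ⟨v, hv⟩ : ∃ v : ℝ, v = (coneMeasure n).real V := ⟨_, rfl⟩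
    have hvpos : 0 < v := by
      rw [hv]
      exact ENNReal.toReal_pos (hV.measure_pos _ ⟨1, hV1⟩).ne' hVfin
    obtain ⟨A, hA⟩ : ∃ A : Set (Lattices n), A = toLattice '' V := ⟨_, rfl⟩
    obtain ⟨hAm, hAv, -⟩ := latMeasure_overlap hV hsep 1
    rw [← hA] at hAm hAv
    have hAr : (latMeasure n).real A = v / c := by
      rw [measureReal_def, hAv, covol_eq, ENNReal.toReal_mul, ENNReal.toReal_inv,
        ENNReal.toReal_ofReal (by positivity), hv, hc, measureReal_def]
      field_simp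
    -- the average over balls
    obtain ⟨J, hJ⟩ : ∃ J : ℝ → ℝ, J = fun R =>
        ∫ g in ball n R, (latMeasure n).real (A ∩ (g * h⁻¹) • A) ∂coneMeasure n := ⟨_, rfl⟩
    have hfm : Measurable fun g : SLR n => (latMeasure n).real (A ∩ (g * h⁻¹) • A) := by
      simp only [measureReal_def, hA, fun g => (latMeasure_overlap hV hsep g).2.2]
      exact (((Measurable.ennreal_tsum fun γ =>
        measurable_measure_prodMk_left (measurableSet_pairs hV γ)).const_mul _).ennreal_toReal).comp
          (continuous_mul_const h⁻¹).measurable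
    have hlim : Tendsto (fun R => J R / (coneMeasure n).real (ball n R)) atTop
        (𝓝 (v / c * (v / c))) := by
      rw [hJ, ← hAr]
      exact tendsto_ball_average hn hfm
        (fun g => by rw [abs_of_nonneg measureReal_nonneg]; exact measureReal_le_one)
        ((FA.SLnMixing.lattices_mixing hAm hAm).comp
          (Homeomorph.mulRight h⁻¹).map_cocompact.le)
    have hbounds : ∀ R, ((intBallAt h (R / k)).ncard : ℝ) * (v * v) / c ≤ J R ∧
        J R ≤ ((intBallAt h (k * R)).ncard : ℝ) * (v * v) / c := by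
      intro R
      obtain ⟨h1, h2⟩ := unfold_bounds hd h hV hVd hVh hsep R
      rw [← hk] at h1 h2
      have hJe : J R = (∫⁻ g in ball n R,
          latMeasure n (A ∩ (g * h⁻¹) • A) ∂coneMeasure n).toReal := by
        rw [hJ]
        refine integral_toReal ?_ (Eventually.of_forall fun g => measure_lt_top _ _)
        simp only [hA, fun g => (latMeasure_overlap hV hsep g).2.2]
        exact ((((Measurable.ennreal_tsum fun γ =>
          measurable_measure_prodMk_left (measurableSet_pairs hV γ)).const_mul _)).comp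
            (continuous_mul_const h⁻¹).measurable).aemeasurable
      have htop : ∀ X : ℝ, (coneMeasure n (fundSet n))⁻¹ *
          ((intBallAt h X).ncard * (coneMeasure n V * coneMeasure n V)) ≠ ⊤ := fun X =>
        ENNReal.mul_ne_top (ENNReal.inv_ne_top.2 fundSet_spec.2.2.1.ne')
          (ENNReal.mul_ne_top (ENNReal.natCast_ne_top _) (ENNReal.mul_ne_top hVfin hVfin))
      have hval : ∀ X : ℝ, ((coneMeasure n (fundSet n))⁻¹ *
          ((intBallAt h X).ncard * (coneMeasure n V * coneMeasure n V))).toReal =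
            ((intBallAt h X).ncard : ℝ) * (v * v) / c := fun X => by
        rw [covol_eq, ENNReal.toReal_mul, ENNReal.toReal_inv,
          ENNReal.toReal_ofReal (by positivity), ← hc, ENNReal.toReal_mul, ENNReal.toReal_mul,
          ENNReal.toReal_natCast, ← measureReal_def, ← hv]
        field_simp
      rw [hJe, hA, ← hval, ← hval]
      exact ⟨ENNReal.toReal_mono (ne_top_of_le_ne_top (htop _) h2) h1,
        ENNReal.toReal_mono (htop _) h2⟩
    have hJp : Tendsto (fun R => J R * c / (v * v) / R ^ p) atTop (𝓝 K₀) := by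
      have h' := (hlim.mul (tendsto_measureReal_ball hn)).const_mul (c / (v * v))
      rw [← hp, show c / (v * v) * (v / c * (v / c) * (ballConst n / n)) = K₀ by
        rw [hK₀, hc]; field_simp] at h'
      refine h'.congr' ?_
      filter_upwards [(tendsto_ball_atTop hn).eventually_gt_atTop 0,
        eventually_gt_atTop (0 : ℝ)] with R hM hR
      have := (Real.rpow_pos_of_pos hR p).ne'
      field_simp
    have hev := hJp.eventually (Icc_mem_nhds (show K₀ - η < K₀ by linarith)
      (show K₀ < K₀ + η by linarith))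
    filter_upwards [(tendsto_id.const_mul_atTop hkpos).eventually hev,
      (tendsto_id.atTop_div_const hkpos).eventually hev, eventually_gt_atTop (0 : ℝ)]
      with R h1 h2 hR
    simp only [id, Set.mem_Icc] at h1 h2
    have hRp := Real.rpow_pos_of_pos hR p
    have hkp := Real.rpow_pos_of_pos hkpos p
    constructor
    · have h3 := (hbounds (k * R)).1
      rw [mul_div_cancel_left₀ _ hkpos.ne'] at h3
      have h4 := h1.2
      rw [Real.mul_rpow hkpos.le hR.le, div_le_iff₀ (mul_pos hkp hRp),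
        div_le_iff₀ (mul_pos hvpos hvpos)] at h4
      rw [div_le_iff₀ hcpos] at h3
      rw [div_le_iff₀ hRp]
      refine le_of_mul_le_mul_right (a := v * v) ?_ (mul_pos hvpos hvpos)
      linarith
    · have h3 := (hbounds (R / k)).2
      rw [mul_div_cancel₀ _ hkpos.ne'] at h3
      have h4 := h2.1
      rw [Real.div_rpow hR.le hkpos.le, le_div_iff₀ (div_pos hRp hkp),
        le_div_iff₀ (mul_pos hvpos hvpos)] at h4
      rw [le_div_iff₀ hcpos] at h3
      rw [le_div_iff₀ hRp, div_mul_eq_mul_div]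
      refine le_of_mul_le_mul_right (a := v * v) ?_ (mul_pos hvpos hvpos)
      rw [mul_div_assoc]
      linarith
  -- let the distortion tend to zero
  have hkc : Tendsto (fun d : ℝ => ((1 + d) ^ 4) ^ p) (𝓝 0) (𝓝 1) := by
    have hcont : ContinuousAt (fun d : ℝ => ((1 + d) ^ 4) ^ p) 0 :=
      ((by fun_prop : ContinuousAt (fun d : ℝ => (1 + d) ^ 4) 0)).rpow_const
        (Or.inl (by norm_num))
    simpa [ContinuousAt, Real.one_rpow] using hcont
  rw [tendsto_order]
  constructor
  · intro a ha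
    obtain ⟨d, hd, hd0⟩ := ((((tendsto_const_nhds (x := (K₀ + a) / 2)).div hkc
      one_ne_zero).eventually
      (lt_mem_nhds (show a < (K₀ + a) / 2 / 1 by linarith))).filter_mono
        (nhdsWithin_le_nhds (s := Ioi 0)) |>.and self_mem_nhdsWithin).exists
    filter_upwards [key d hd0 ((K₀ - a) / 2) (by linarith)] with R hR
    refine hd.trans_le ?_
    have hb := hR.2
    rwa [show K₀ - (K₀ - a) / 2 = (K₀ + a) / 2 by ring] at hb
  · intro a ha
    obtain ⟨d, hd, hd0⟩ := (((hkc.mul_const ((K₀ + a) / 2)).eventually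
      (gt_mem_nhds (show 1 * ((K₀ + a) / 2) < a by linarith))).filter_mono
        (nhdsWithin_le_nhds (s := Ioi 0)) |>.and self_mem_nhdsWithin).exists
    filter_upwards [key d hd0 ((a - K₀) / 2) (by linarith)] with R hR
    refine lt_of_le_of_lt ?_ hd
    have hb := hR.1
    rwa [show K₀ + (a - K₀) / 2 = (K₀ + a) / 2 by ring] at hb

/-- The case without translation. -/
theorem tendsto_intBall (hn : 2 ≤ n) :
    Tendsto (fun R => ((intBall n R).ncard : ℝ) / R ^ (((n : ℝ) ^ 2 - n) / 2)) atTop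
      (𝓝 (ballConst n / zetaProd n)) := by
  simpa only [intBallAt_one] using tendsto_intBallAt hn (1 : SLR n)

end FA.SLnCount

end
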