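import Mathlib.Analysis.Real.Sqrt
import Mathlib.LinearAlgebra.Matrix.Determinant.Basic
import Mathlib.LinearAlgebra.Matrix.DotProduct
import Mathlib.LinearAlgebra.Matrix.NonsingularInverse
import Mathlib.MeasureTheory.Measure.Lebesgue.EqHaar
import Mathlib.Topology.Instances.Matrix

/-!
# The cross product of `m` vectors in `ℝ ^ (m + 1)`

The determinant of a square matrix is the scalar product of one row with the cross product of the
others; the length of the cross product is invariant under orthogonal transformations.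
-/

set_option autoImplicit false

noncomputable section

open MeasureTheory Matrix
open scoped ENNReal

namespace FA.SLnCount

variable {m k : ℕ}

/-- The sum of the squares of the entries. -/
def frobSq (X : Fin k → Fin m → ℝ) : ℝ := ∑ i, X i ⬝ᵥ X i

theorem frobSq_nonneg (X : Fin k → Fin m → ℝ) : 0 ≤ frobSq X :=
  Finset.sum_nonneg fun _ _ => Finset.sum_nonneg fun _ _ => mul_self_nonneg _

theorem frobSq_cons (a : Fin m → ℝ) (B : Fin k → Fin m → ℝ) :
    frobSq (Fin.cons a B : Fin (k + 1) → Fin m → ℝ) = a ⬝ᵥ a + frobSq B := by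
  simp only [frobSq]
  rw [Fin.sum_univ_succ]
  simp

theorem continuous_frobSq : Continuous (frobSq : (Fin k → Fin m → ℝ) → ℝ) := by
  unfold frobSq dotProduct
  fun_prop

theorem frobSq_smul (t : ℝ) (X : Fin k → Fin m → ℝ) : frobSq (t • X) = t ^ 2 * frobSq X := by
  simp only [frobSq, Finset.mul_sum, Pi.smul_apply, dotProduct_smul, smul_dotProduct, smul_eq_mul]
  exact Finset.sum_congr rfl fun _ _ => by ring

/-- The cross product of `m` vectors. -/
def cross (A : Fin m → Fin (m + 1) → ℝ) (j : Fin (m + 1)) : ℝ :=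
  (-1) ^ (j : ℕ) * ((Matrix.of A).submatrix id j.succAbove).det

theorem det_cons (x : Fin (m + 1) → ℝ) (A : Fin m → Fin (m + 1) → ℝ) :
    (Matrix.of (Fin.cons x A : Fin (m + 1) → Fin (m + 1) → ℝ)).det = cross A ⬝ᵥ x := by
  rw [Matrix.det_succ_row_zero, dotProduct]
  refine Finset.sum_congr rfl fun j _ => ?_
  have e : (Matrix.of (Fin.cons x A : Fin (m + 1) → Fin (m + 1) → ℝ)).submatrix Fin.succ
      j.succAbove = (Matrix.of A).submatrix id j.succAbove := by
    ext p q
    simp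
  rw [e, cross, Matrix.of_apply, Fin.cons_zero]
  ring

theorem continuous_cross : Continuous (cross : (Fin m → Fin (m + 1) → ℝ) → Fin (m + 1) → ℝ) :=
  continuous_pi fun _ => continuous_const.mul (Continuous.matrix_det
    (continuous_pi fun _ => continuous_pi fun _ => by
      simp only [Matrix.submatrix_apply, Matrix.of_apply, id]
      fun_prop))

theorem cross_smul (t : ℝ) (A : Fin m → Fin (m + 1) → ℝ) : cross (t • A) = t ^ m • cross A := by
  funext j
  have e : (Matrix.of (t • A)).submatrix id j.succAbove =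
      t • (Matrix.of A).submatrix id j.succAbove := rfl
  rw [Pi.smul_apply, cross, cross, e, Matrix.det_smul, Fintype.card_fin, smul_eq_mul]
  ring

/-- The length of the cross product. -/
def cr (A : Fin m → Fin (m + 1) → ℝ) : ℝ := Real.sqrt (cross A ⬝ᵥ cross A)

theorem continuous_cr : Continuous (cr : (Fin m → Fin (m + 1) → ℝ) → ℝ) := by
  unfold cr dotProduct
  exact (continuous_finsetSum _ fun i _ => ((continuous_apply i).comp continuous_cross).mul
    ((continuous_apply i).comp continuous_cross)).sqrt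

theorem cr_nonneg (A : Fin m → Fin (m + 1) → ℝ) : 0 ≤ cr A := Real.sqrt_nonneg _

theorem cr_smul {t : ℝ} (ht : 0 ≤ t) (A : Fin m → Fin (m + 1) → ℝ) :
    cr (t • A) = t ^ m * cr A := by
  rw [cr, cr, cross_smul, dotProduct_smul, smul_dotProduct, smul_eq_mul, smul_eq_mul, ← mul_assoc,
    Real.sqrt_mul (mul_self_nonneg _), Real.sqrt_mul_self (pow_nonneg ht m)]

theorem dotProduct_vecMul_self {Q : Matrix (Fin m) (Fin m) ℝ} (hQ : Q * Qᵀ = 1)
    (x : Fin m → ℝ) : (x ᵥ* Q) ⬝ᵥ (x ᵥ* Q) = x ⬝ᵥ x := by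
  rw [← dotProduct_mulVec, ← Matrix.mulVec_transpose, Matrix.mulVec_mulVec, hQ,
    Matrix.one_mulVec]

theorem det_mul_self_of_orth {Q : Matrix (Fin m) (Fin m) ℝ} (hQ : Q * Qᵀ = 1) :
    Q.det * Q.det = 1 := by
  simpa using congrArg Matrix.det hQ

theorem cr_mul {Q : Matrix (Fin (m + 1)) (Fin (m + 1)) ℝ} (hQ : Q * Qᵀ = 1)
    (A : Fin m → Fin (m + 1) → ℝ) : cr (fun i => A i ᵥ* Q) = cr A := by
  have hc : cross (fun i => A i ᵥ* Q) = Q.det • (cross A ᵥ* Q) := by
    refine dotProduct_eq _ _ fun y => ?_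
    have e : Matrix.of (Fin.cons y fun i => A i ᵥ* Q : Fin (m + 1) → Fin (m + 1) → ℝ) =
        Matrix.of (Fin.cons (y ᵥ* Qᵀ) A : Fin (m + 1) → Fin (m + 1) → ℝ) * Q := by
      refine Matrix.ext fun p q => ?_
      rw [Matrix.mul_apply_eq_vecMul]
      refine Fin.cases ?_ (fun i => ?_) p
      · show y q = ((y ᵥ* Qᵀ) ᵥ* Q) q
        rw [Matrix.vecMul_vecMul, mul_eq_one_comm.1 hQ, Matrix.vecMul_one]
      · show (A i ᵥ* Q) q = (A i ᵥ* Q) q
        rfl
    rw [← det_cons, e, Matrix.det_mul, det_cons, smul_dotProduct, smul_eq_mul,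
      Matrix.vecMul_transpose, dotProduct_mulVec]
    ring
  rw [cr, cr, hc, dotProduct_smul, smul_dotProduct, smul_eq_mul, smul_eq_mul, ← mul_assoc,
    det_mul_self_of_orth hQ, one_mul, dotProduct_vecMul_self hQ]

theorem frobSq_mul {Q : Matrix (Fin m) (Fin m) ℝ} (hQ : Q * Qᵀ = 1) (X : Fin k → Fin m → ℝ) :
    frobSq (fun i => X i ᵥ* Q) = frobSq X :=
  Finset.sum_congr rfl fun i _ => dotProduct_vecMul_self hQ (X i)

/-- A symmetric orthogonal matrix moving a vector to the first axis. -/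
theorem exists_reflection (a : Fin (m + 1) → ℝ) :
    ∃ Q : Matrix (Fin (m + 1)) (Fin (m + 1)) ℝ, Qᵀ = Q ∧ Q * Q = 1 ∧
      a ᵥ* Q = Pi.single 0 (Real.sqrt (a ⬝ᵥ a)) := by
  obtain ⟨e, he⟩ : ∃ e : Fin (m + 1) → ℝ, e = Pi.single 0 (Real.sqrt (a ⬝ᵥ a)) := ⟨_, rfl⟩
  obtain ⟨v, hv⟩ : ∃ v : Fin (m + 1) → ℝ, v = a - e := ⟨_, rfl⟩
  have hee : e ⬝ᵥ e = a ⬝ᵥ a := by
    rw [he, single_dotProduct, Pi.single_eq_same, Real.mul_self_sqrt]
    exact Finset.sum_nonneg fun _ _ => mul_self_nonneg _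
  have hav : v ⬝ᵥ v = 2 * (a ⬝ᵥ v) := by
    rw [hv, sub_dotProduct, dotProduct_sub, dotProduct_sub, hee, dotProduct_comm e a]
    ring
  have hT : (vecMulVec v v)ᵀ = vecMulVec v v := Matrix.transpose_vecMulVec v v
  refine ⟨1 - (2 / (v ⬝ᵥ v)) • vecMulVec v v, ?_, ?_, ?_⟩
  · rw [Matrix.transpose_sub, Matrix.transpose_one, Matrix.transpose_smul, hT]
  · have hP : vecMulVec v v * vecMulVec v v = (v ⬝ᵥ v) • vecMulVec v v := by
      refine Matrix.ext fun p q => ?_
      simp only [Matrix.mul_apply, Matrix.vecMulVec_apply, Matrix.smul_apply, smul_eq_mul,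
        dotProduct, Finset.sum_mul]
      exact Finset.sum_congr rfl fun r _ => by ring
    have hc : 2 / (v ⬝ᵥ v) * (2 / (v ⬝ᵥ v) * (v ⬝ᵥ v)) =
        2 / (v ⬝ᵥ v) + 2 / (v ⬝ᵥ v) := by
      rcases eq_or_ne (v ⬝ᵥ v) 0 with h | h
      · simp [h]
      · field_simp
        ring
    rw [Matrix.sub_mul, Matrix.one_mul, Matrix.mul_sub, Matrix.mul_one, Matrix.smul_mul,
      Matrix.mul_smul, hP, smul_smul, smul_smul, mul_assoc, hc, add_smul]
    abel
  · rw [Matrix.vecMul_sub, Matrix.vecMul_one, Matrix.vecMul_smul, Matrix.vecMul_vecMulVec,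
      smul_smul, ← he]
    rcases eq_or_ne v 0 with h | h
    · rw [h, smul_zero, sub_zero]
      rw [h] at hv
      exact sub_eq_zero.1 hv.symm
    · have h0 : v ⬝ᵥ v ≠ 0 := fun h' => h (dotProduct_self_eq_zero.1 h')
      rw [show 2 / (v ⬝ᵥ v) * (a ⬝ᵥ v) = 1 by
        rw [div_mul_eq_mul_div, ← hav, div_self h0], one_smul, hv, sub_sub_cancel]

theorem measurePreserving_vecMul {Q : Matrix (Fin m) (Fin m) ℝ} (hQ : Q * Qᵀ = 1) :
    MeasurePreserving (fun x : Fin m → ℝ => x ᵥ* Q) volume volume := by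
  have hdet := det_mul_self_of_orth hQ
  have e : (fun x : Fin m → ℝ => x ᵥ* Q) = Matrix.toLin' Qᵀ := by
    funext x
    rw [Matrix.toLin'_apply, Matrix.mulVec_transpose]
  rw [e]
  refine ⟨(Matrix.toLin' Qᵀ).continuous_of_finiteDimensional.measurable, ?_⟩
  have hne : Qᵀ.det ≠ 0 := by
    rw [Matrix.det_transpose]
    exact left_ne_zero_of_mul (hdet.trans_ne one_ne_zero)
  rw [Real.map_matrix_volume_pi_eq_smul_volume_pi hne, Matrix.det_transpose]
  rcases mul_self_eq_one_iff.1 hdet with h | h <;> simp [h]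

theorem measurePreserving_rows {Q : Matrix (Fin m) (Fin m) ℝ} (hQ : Q * Qᵀ = 1) :
    MeasurePreserving (fun (X : Fin k → Fin m → ℝ) i => X i ᵥ* Q) volume volume :=
  volume_preserving_pi fun _ => measurePreserving_vecMul hQ

end FA.SLnCount

end
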