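import Fermat.Agent.SLnCount.Count
import Fermat.Agent.SLnVolume.Orbits
import Mathlib.NumberTheory.ArithmeticFunction.Misc

/-!
# Integral matrices of a given determinant

The integral matrices of determinant `k` with a given row span form one orbit of `SL n ℤ`, so each
subgroup of index `|k|` contributes one translated count.
-/

set_option autoImplicit false

noncomputable section

open MeasureTheory Filter Topology Matrix
open FA.SLnLattice FA.SLnVolume

namespace FA.SLnCount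

variable {n : ℕ}

/-- The integral matrices of determinant `k` in a ball. -/
def detBall (n : ℕ) (k : ℤ) (R : ℝ) : Set (Matrix (Fin n) (Fin n) ℤ) :=
  {A | A.det = k ∧ matSq (A.map fun z : ℤ => (z : ℝ)) ≤ R}

theorem rowSpan_unimodular_mul (γ : Matrix.SpecialLinearGroup (Fin n) ℤ)
    (X : Matrix (Fin n) (Fin n) ℤ) : rowSpan (γ.1 * X) = rowSpan X := by
  ext v
  simp only [mem_rowSpan]
  constructor
  · rintro ⟨z, rfl⟩
    exact ⟨z ᵥ* γ.1, by rw [vecMul_vecMul]⟩
  · rintro ⟨z, rfl⟩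
    refine ⟨z ᵥ* (γ⁻¹).1, ?_⟩
    rw [vecMul_vecMul, ← Matrix.mul_assoc, ← Matrix.SpecialLinearGroup.coe_mul, inv_mul_cancel,
      Matrix.SpecialLinearGroup.coe_one, Matrix.one_mul]

theorem matSq_smul (c : ℝ) (M : Matrix (Fin n) (Fin n) ℝ) : matSq (c • M) = c ^ 2 * matSq M := by
  simp [matSq, mul_pow, Finset.mul_sum]

/-- Flipping a row changes only the sign of the determinant. -/
theorem ncard_detBall_neg [NeZero n] (k : ℤ) (R : ℝ) :
    (detBall n (-k) R).ncard = (detBall n k R).ncard := by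
  obtain ⟨s, hs⟩ : ∃ s : Fin n → ℤ, s = Function.update (1 : Fin n → ℤ) 0 (-1) := ⟨_, rfl⟩
  have hs2 : ∀ i, s i * s i = 1 := fun i => by
    rw [hs]
    rcases eq_or_ne i 0 with rfl | hi <;> simp [*]
  have hinv : ∀ A : Matrix (Fin n) (Fin n) ℤ, diagonal s * (diagonal s * A) = A := fun A => by
    rw [← Matrix.mul_assoc, diagonal_mul_diagonal, show (fun i => s i * s i) = 1 from funext hs2,
      diagonal_one', Matrix.one_mul]
  have hdet : ∀ A : Matrix (Fin n) (Fin n) ℤ, (diagonal s * A).det = -A.det := fun A => by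
    rw [det_mul, det_diagonal, hs, Finset.prod_update_of_mem (Finset.mem_univ _)]
    simp
  have hsq : ∀ A : Matrix (Fin n) (Fin n) ℤ,
      matSq ((diagonal s * A).map fun z : ℤ => (z : ℝ)) = matSq (A.map fun z : ℤ => (z : ℝ)) := by
    intro A
    refine Finset.sum_congr rfl fun i _ => Finset.sum_congr rfl fun j _ => ?_
    have h := congrArg (fun z : ℤ => (z : ℝ)) (hs2 i)
    simp only [Int.cast_mul, Int.cast_one] at h
    rw [map_apply, map_apply, diagonal_mul, Int.cast_mul, mul_pow, sq (s i : ℝ), h, one_mul]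
  refine Set.ncard_congr (fun A _ => diagonal s * A) ?_ ?_ ?_
  · rintro A ⟨h1, h2⟩
    exact ⟨by rw [hdet, h1, neg_neg], by rw [hsq]; exact h2⟩
  · intro A B _ _ h
    simpa [hinv] using congrArg (diagonal s * ·) h
  · rintro B ⟨h1, h2⟩
    exact ⟨diagonal s * B, ⟨by rw [hdet, h1], by rw [hsq]; exact h2⟩, hinv B⟩

variable [MeasurableSpace (SLR n)] [BorelSpace (SLR n)] [NeZero n]

omit [MeasurableSpace (SLR n)] [BorelSpace (SLR n)] in
/-- The splitting by row spans. -/
theorem exists_split {d : ℕ} (hd : 0 < d) :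
    ∃ h : idxSet n d → SLR n, ∀ R : ℝ, (detBall n d R).ncard =
      ∑ᶠ L : idxSet n d, (intBallAt (h L) (R / (d : ℝ) ^ ((2 : ℝ) / n))).ncard := by
  have hd' : (0 : ℝ) < d := Nat.cast_pos.2 hd
  choose X hXdet hXspan using fun L : idxSet n d =>
    exists_matrix (L := L.1) (show L.1.index ≠ 0 by rw [L.2]; omega)
  have hXd : ∀ L, (X L).det = d := fun L => by rw [hXdet, L.2]
  obtain ⟨c, hc⟩ : ∃ c : ℝ, c = (d : ℝ) ^ (-(1 : ℝ) / n) := ⟨_, rfl⟩
  have hcdet : ∀ L, (c • (X L).map fun z : ℤ => (z : ℝ)).det = 1 := fun L => by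
    rw [det_smul, Fintype.card_fin, hc, ← Real.rpow_natCast, ← Real.rpow_mul hd'.le,
      div_mul_cancel₀ _ (Nat.cast_ne_zero.2 (NeZero.ne n)), ← Int.coe_castRingHom,
      show ((X L).map (Int.castRingHom ℝ)).det = (Int.castRingHom ℝ) (X L).det from
        ((Int.castRingHom ℝ).map_det (X L)).symm, hXd, map_natCast,
      Real.rpow_neg_one, inv_mul_cancel₀ hd'.ne']
  refine ⟨fun L => ⟨_, hcdet L⟩, fun R => ?_⟩
  have hfin : Finite (idxSet n d) := (finite_idxSet hd.ne').to_subtype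
  haveI := Fintype.ofFinite (idxSet n d)
  rw [finsum_eq_sum_of_fintype]
  have hnorm : ∀ L (δ : Matrix.SpecialLinearGroup (Fin n) ℤ),
      δ ∈ intBallAt (⟨_, hcdet L⟩ : SLR n) (R / (d : ℝ) ^ ((2 : ℝ) / n)) ↔
        δ.1 * X L ∈ detBall n d R := fun L δ => by
    rw [intBallAt, detBall, Set.mem_ofPred_eq, Set.mem_ofPred_eq, det_mul, δ.2, one_mul,
      and_iff_right (hXd L), normSqSL_eq, Matrix.SpecialLinearGroup.coe_mul,
      Matrix.SpecialLinearGroup.map_apply_coe, RingHom.mapMatrix_apply]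
    show matSq (δ.1.map (Int.castRingHom ℝ) * c • (X L).map fun z : ℤ => (z : ℝ)) ≤ _ ↔ _
    rw [Matrix.mul_smul, matSq_smul, hc, ← Real.rpow_natCast _ 2, ← Real.rpow_mul hd'.le,
      ← Int.coe_castRingHom, ← Matrix.map_mul, le_div_iff₀ (Real.rpow_pos_of_pos hd' _),
      mul_right_comm, ← Real.rpow_add hd',
      show -(1 : ℝ) / n * ((2 : ℕ) : ℝ) + 2 / n = 0 by push_cast; ring, Real.rpow_zero, one_mul]
  haveI : ∀ L, Finite (intBallAt (⟨_, hcdet L⟩ : SLR n) (R / (d : ℝ) ^ ((2 : ℝ) / n))) := fun L =>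
    (finite_intBallAt _ _).to_subtype
  simp only [← Nat.card_coe_set_eq]
  rw [← Nat.card_sigma]
  refine (Nat.card_eq_of_bijective (fun z => ⟨z.2.1.1 * X z.1, (hnorm z.1 z.2.1).1 z.2.2⟩)
    ⟨?_, ?_⟩).symm
  · rintro ⟨L, δ, hδ⟩ ⟨M, ε, hε⟩ h
    have h' : δ.1 * X L = ε.1 * X M := congrArg Subtype.val h
    have hLM : L = M := Subtype.ext (by
      rw [← hXspan L, ← hXspan M, ← rowSpan_unimodular_mul δ, h', rowSpan_unimodular_mul])
    subst hLM
    have he : δ = ε := by
      refine Subtype.ext ?_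
      have h2 := congrArg (· * (X L).adjugate) h'
      simp only [Matrix.mul_assoc, mul_adjugate, hXd, Matrix.mul_smul, Matrix.mul_one] at h2
      ext i j
      exact mul_left_cancel₀ (Nat.cast_ne_zero.2 hd.ne') (congrFun (congrFun h2 i) j)
    subst he
    rfl
  · rintro ⟨A, hAdet, hA⟩
    have hidx : (rowSpan A).index = d := by
      rw [index_rowSpan (by rw [hAdet]; exact_mod_cast hd.ne'), hAdet, Int.natAbs_natCast]
    obtain ⟨L, hL⟩ : ∃ L : idxSet n d, L.1 = rowSpan A := ⟨⟨_, hidx⟩, rfl⟩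
    obtain ⟨γ, hγ⟩ := exists_unimodular_eq (X := X L) (Y := A)
      (by rw [hXd]; exact_mod_cast hd.ne') (by rw [hAdet, hXd]) (by rw [hXspan, hL])
    exact ⟨⟨L, γ, (hnorm L γ).2 (hγ ▸ ⟨hAdet, hA⟩)⟩, Subtype.ext hγ.symm⟩

/-- **Integral matrices of a given determinant.** -/
theorem tendsto_detBall (hn : 2 ≤ n) {k : ℤ} (hk : k ≠ 0) :
    Tendsto (fun R => ((detBall n k R).ncard : ℝ) / R ^ (((n : ℝ) ^ 2 - n) / 2)) atTop
      (𝓝 (ballConst n / zetaProd n * (idxCount n k.natAbs / (k.natAbs : ℝ) ^ (n - 1)))) := by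
  obtain ⟨d, hd⟩ : ∃ d : ℕ, d = k.natAbs := ⟨_, rfl⟩
  rw [← hd]
  have hd0 : 0 < d := hd ▸ Int.natAbs_pos.2 hk
  have hcongr : ∀ R, (detBall n k R).ncard = (detBall n d R).ncard := fun R => by
    rcases Int.natAbs_eq k with h | h <;> rw [h, ← hd]
    rw [ncard_detBall_neg]
  simp only [hcongr]
  obtain ⟨h, hh⟩ := exists_split (n := n) hd0
  have hfin : Finite (idxSet n d) := (finite_idxSet hd0.ne').to_subtype
  haveI := Fintype.ofFinite (idxSet n d)
  obtain ⟨p, hp⟩ : ∃ p : ℝ, p = ((n : ℝ) ^ 2 - n) / 2 := ⟨_, rfl⟩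
  rw [← hp]
  have hd' : (0 : ℝ) < d := Nat.cast_pos.2 hd0
  obtain ⟨s, hs⟩ : ∃ s : ℝ, s = (d : ℝ) ^ ((2 : ℝ) / n) := ⟨_, rfl⟩
  have hs0 : 0 < s := hs ▸ Real.rpow_pos_of_pos hd' _
  have hsp : s ^ p = (d : ℝ) ^ (n - 1) := by
    rw [hs, ← Real.rpow_mul hd'.le, ← Real.rpow_natCast, Nat.cast_sub (by omega), hp]
    congr 1
    field_simp
    push_cast
    ring
  have hone : ∀ L : idxSet n d, Tendsto
      (fun R => ((intBallAt (h L) (R / s)).ncard : ℝ) / R ^ p) atTop
      (𝓝 (ballConst n / zetaProd n / (d : ℝ) ^ (n - 1))) := fun L => by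
    refine (((hp ▸ tendsto_intBallAt hn (h L)).comp
      (tendsto_id.atTop_div_const hs0)).div_const ((d : ℝ) ^ (n - 1))).congr' ?_
    filter_upwards [eventually_gt_atTop (0 : ℝ)] with R hR
    have := (Real.rpow_pos_of_pos hR p).ne'
    rw [Function.comp_apply, id, Real.div_rpow hR.le hs0.le, hsp]
    field_simp
  have hsum := tendsto_finsetSum Finset.univ fun L _ => hone L
  rw [Finset.sum_const, Finset.card_univ, ← Nat.card_eq_fintype_card, Nat.card_coe_set_eq,
    nsmul_eq_mul, ← idxCount, mul_div_left_comm] at hsum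
  refine hsum.congr fun R => ?_
  rw [hh, finsum_eq_sum_of_fintype, Nat.cast_sum, Finset.sum_div, hs]

omit [MeasurableSpace (SLR n)] [BorelSpace (SLR n)] [NeZero n] in
theorem idxCount_at_one : ∀ n : ℕ, idxCount n 1 = 1
  | 0 => by rw [idxCount_zero]; rfl
  | n + 1 => by
    rw [idxCount_succ n one_ne_zero, Nat.divisorsAntidiagonal_one, Finset.sum_singleton,
      idxCount_at_one n, mul_one]

omit [MeasurableSpace (SLR n)] [BorelSpace (SLR n)] [NeZero n] in
theorem idxCount_prime {p : ℕ} (hp : p.Prime) :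
    ∀ n : ℕ, idxCount n p = ∑ i ∈ Finset.range n, p ^ i
  | 0 => by simp [idxCount_zero, hp.ne_one]
  | n + 1 => by
    rw [idxCount_succ n hp.ne_zero, Nat.sum_divisorsAntidiagonal' (fun _ b => b * idxCount n b),
      hp.sum_divisors, idxCount_at_one, idxCount_prime hp n, Finset.mul_sum,
      Finset.sum_range_succ', pow_zero, mul_one]
    simp only [pow_succ']

omit [MeasurableSpace (SLR n)] [BorelSpace (SLR n)] [NeZero n] in
theorem idxCount_two {d : ℕ} (hd : d ≠ 0) : idxCount 2 d = ArithmeticFunction.sigma 1 d := by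
  rw [idxCount_succ 1 hd, Nat.sum_divisorsAntidiagonal' (fun _ b => b * idxCount 1 b),
    ArithmeticFunction.sigma_one_apply]
  refine Finset.sum_congr rfl fun b hb => ?_
  rw [idxCount_one (Nat.pos_of_mem_divisors hb).ne', mul_one]

end FA.SLnCount

end
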