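import Fermat.Agent.SLnCount.Cross
import Mathlib.Analysis.SpecialFunctions.Gaussian.GaussianIntegral
import Mathlib.MeasureTheory.Constructions.HaarToSphere
import Mathlib.MeasureTheory.Integral.Gamma
import Mathlib.MeasureTheory.Measure.Lebesgue.VolumeOfBalls

/-!
# Gaussian integrals of inverse cross products

The integral of `exp (- ∑ a i j ^ 2)` divided by the length of the cross product of the rows of
`a`, an `m × (m + 1)` matrix, is `π ^ (m (m + 1) / 2) √π / Γ ((m + 1) / 2)`.
-/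

set_option autoImplicit false

noncomputable section

open MeasureTheory Matrix
open scoped ENNReal Real

namespace FA.SLnCount

variable {m k : ℕ}

/-- The volume of the unit ball of `ℝ ^ m`. -/
def ballVol (m : ℕ) : ℝ := Real.sqrt π ^ m / Real.Gamma ((m : ℝ) / 2 + 1)

theorem ballVol_pos (m : ℕ) : 0 < ballVol m :=
  div_pos (pow_pos (Real.sqrt_pos.2 Real.pi_pos) m) (Real.Gamma_pos_of_pos (by positivity))

theorem norm_toLp_eq (x : Fin m → ℝ) : ‖WithLp.toLp 2 x‖ = Real.sqrt (x ⬝ᵥ x) := by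
  rw [EuclideanSpace.norm_eq, dotProduct]
  congr 1
  exact Finset.sum_congr rfl fun i _ => by rw [Real.norm_eq_abs, sq_abs, sq]

theorem volume_dot_le [NeZero m] (q : ℝ) :
    volume {x : Fin m → ℝ | x ⬝ᵥ x ≤ q} =
      ENNReal.ofReal (ballVol m * max q 0 ^ ((m : ℝ) / 2)) := by
  rcases lt_or_ge q 0 with hq | hq
  · have e : {x : Fin m → ℝ | x ⬝ᵥ x ≤ q} = ∅ :=
      Set.eq_empty_of_forall_notMem fun x (hx : x ⬝ᵥ x ≤ q) => absurd
        ((show (0 : ℝ) ≤ x ⬝ᵥ x from Finset.sum_nonneg fun _ _ => mul_self_nonneg _).trans hx)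
        (not_le.2 hq)
    have h : (0 : ℝ) < (m : ℝ) / 2 :=
      half_pos (Nat.cast_pos.2 (Nat.pos_of_ne_zero (NeZero.ne m)))
    rw [e, measure_empty, max_eq_right hq.le, Real.zero_rpow h.ne', mul_zero, ENNReal.ofReal_zero]
  · have e : {x : Fin m → ℝ | x ⬝ᵥ x ≤ q} =
        (WithLp.toLp 2) ⁻¹' Metric.closedBall (0 : EuclideanSpace ℝ (Fin m)) (Real.sqrt q) := by
      ext x
      simp [norm_toLp_eq, Real.sqrt_le_sqrt_iff hq]
    rw [e, (PiLp.volume_preserving_toLp (Fin m)).measure_preimage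
      measurableSet_closedBall.nullMeasurableSet, EuclideanSpace.volume_closedBall,
      Fintype.card_fin, ← ENNReal.ofReal_pow (Real.sqrt_nonneg q),
      ← ENNReal.ofReal_mul (pow_nonneg (Real.sqrt_nonneg q) m), max_eq_left hq, ballVol, mul_comm,
      Real.sqrt_eq_rpow q, ← Real.rpow_natCast (q ^ (1 / 2 : ℝ)), ← Real.rpow_mul hq]
    congr 3
    ring

/-- A real integral as a lower integral. -/
theorem lintegral_ofReal_eq {α : Type*} [MeasurableSpace α] {μ : Measure α} {f : α → ℝ}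
    (hf : Integrable f μ) (h0 : 0 ≤ᵐ[μ] f) {c : ℝ} (hc : ∫ x, f x ∂μ = c) :
    ∫⁻ x, ENNReal.ofReal (f x) ∂μ = ENNReal.ofReal c := by
  rw [← ofReal_integral_eq_lintegral_ofReal hf h0, hc]

theorem lintegral_gauss_real :
    ∫⁻ t : ℝ, ENNReal.ofReal (Real.exp (-(t * t))) = ENNReal.ofReal (Real.sqrt π) := by
  have e : (fun t : ℝ => Real.exp (-(t * t))) = fun t => Real.exp (-1 * t ^ 2) := by
    funext t
    ring_nf
  refine lintegral_ofReal_eq ?_ (Filter.Eventually.of_forall fun t => (Real.exp_pos _).le) ?_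
  · rw [e]
    exact integrable_exp_neg_mul_sq one_pos
  · rw [e, integral_gaussian, div_one]

theorem lintegral_gauss : ∀ k : ℕ, ∫⁻ x : Fin k → ℝ, ENNReal.ofReal (Real.exp (-(x ⬝ᵥ x))) =
    ENNReal.ofReal (Real.sqrt π ^ k)
  | 0 => by
    rw [lintegral_unique]
    simp [volume_pi]
  | k + 1 => by
    rw [← (volume_preserving_piFinSuccAbove (fun _ : Fin (k + 1) => ℝ) 0).symm.lintegral_comp_emb
      (MeasurableEquiv.measurableEmbedding _), Measure.volume_eq_prod,
      lintegral_prod _ (by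
        refine Measurable.aemeasurable (Measurable.ennreal_ofReal (Measurable.exp ?_))
        exact ((Continuous.dotProduct continuous_id continuous_id).measurable.comp
          (MeasurableEquiv.measurable _)).neg)]
    have e : ∀ (a : ℝ) (y : Fin k → ℝ), ENNReal.ofReal (Real.exp (-((Fin.insertNth 0 a y :
        Fin (k + 1) → ℝ) ⬝ᵥ (Fin.insertNth 0 a y : Fin (k + 1) → ℝ)))) =
        ENNReal.ofReal (Real.exp (-(a * a))) * ENNReal.ofReal (Real.exp (-(y ⬝ᵥ y))) :=
        fun a y => by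
      rw [← ENNReal.ofReal_mul (Real.exp_pos _).le, ← Real.exp_add]
      simp [dotProduct, Fin.sum_univ_succ, add_comm]
    simp only [MeasurableEquiv.piFinSuccAbove_symm_apply, Fin.insertNthEquiv, Equiv.coe_fn_mk, e]
    rw [lintegral_lintegral_mul (by fun_prop) (by
      refine Measurable.aemeasurable (Measurable.ennreal_ofReal (Measurable.exp ?_))
      exact (Continuous.dotProduct continuous_id continuous_id).measurable.neg),
      lintegral_gauss_real, lintegral_gauss k, ← ENNReal.ofReal_mul (Real.sqrt_nonneg _),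
      pow_succ']

/-- The radial integral. -/
theorem lintegral_gauss_div (m : ℕ) :
    ∫⁻ x : Fin (m + 2) → ℝ,
        ENNReal.ofReal (Real.exp (-(x ⬝ᵥ x))) * (ENNReal.ofReal (Real.sqrt (x ⬝ᵥ x)))⁻¹ =
      ENNReal.ofReal (Real.sqrt π ^ (m + 2) * Real.Gamma (((m : ℝ) + 1) / 2) /
        Real.Gamma (((m : ℝ) + 2) / 2)) := by
  have hmeas : Measurable fun x : Fin (m + 2) → ℝ => x ⬝ᵥ x :=
    (Continuous.dotProduct continuous_id continuous_id).measurable
  have h1 : ∫⁻ x : Fin (m + 2) → ℝ,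
        ENNReal.ofReal (Real.exp (-(x ⬝ᵥ x))) * (ENNReal.ofReal (Real.sqrt (x ⬝ᵥ x)))⁻¹ =
      ∫⁻ y : EuclideanSpace ℝ (Fin (m + 2)), ENNReal.ofReal (Real.exp (-‖y‖ ^ 2) / ‖y‖) := by
    rw [← (PiLp.volume_preserving_toLp (Fin (m + 2))).lintegral_comp (by fun_prop)]
    refine lintegral_congr_ae ?_
    have h0 : ∀ᵐ x : Fin (m + 2) → ℝ, x ≠ 0 := by
      simp [ae_iff]
    filter_upwards [h0] with x hx
    have hp : 0 < Real.sqrt (x ⬝ᵥ x) := Real.sqrt_pos.2 (lt_of_le_of_ne
      (Finset.sum_nonneg fun _ _ => mul_self_nonneg _)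
      (fun h => hx (dotProduct_self_eq_zero.1 h.symm)))
    rw [norm_toLp_eq, ENNReal.ofReal_div_of_pos hp, div_eq_mul_inv, Real.sq_sqrt
      (show 0 ≤ x ⬝ᵥ x from Finset.sum_nonneg fun _ _ => mul_self_nonneg _)]
  have hint : ∀ t ∈ Set.Ioi (0 : ℝ), t ^ (m + 2 - 1) • (Real.exp (-t ^ 2) / t) =
      t ^ ((m : ℝ)) * Real.exp (-t ^ (2 : ℝ)) := by
    intro t ht
    have h' : t ≠ 0 := ne_of_gt ht
    rw [Real.rpow_natCast, Real.rpow_two, show m + 2 - 1 = m + 1 from rfl, pow_succ, smul_eq_mul]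
    field_simp
  have hfin : Module.finrank ℝ (EuclideanSpace ℝ (Fin (m + 2))) = m + 2 :=
    finrank_euclideanSpace_fin
  rw [h1]
  refine lintegral_ofReal_eq ?_ (Filter.Eventually.of_forall fun y => by positivity) ?_
  · rw [integrable_fun_norm_addHaar (μ := volume) (f := fun t => Real.exp (-t ^ 2) / t), hfin]
    exact (integrableOn_rpow_mul_exp_neg_rpow (p := 2) (s := m)
      (by linarith [m.cast_nonneg (α := ℝ)]) two_pos).congr_fun
      (fun t ht => (hint t ht).symm) measurableSet_Ioi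
  · rw [integral_fun_norm_addHaar volume (fun t => Real.exp (-t ^ 2) / t), hfin,
      setIntegral_congr_fun measurableSet_Ioi hint,
      integral_rpow_mul_exp_neg_rpow two_pos (by linarith [m.cast_nonneg (α := ℝ)]),
      measureReal_def, EuclideanSpace.volume_ball, ENNReal.ofReal_one, one_pow, one_mul,
      ENNReal.toReal_ofReal (by positivity), Fintype.card_fin, nsmul_eq_mul, smul_eq_mul,
      show ((m + 2 : ℕ) : ℝ) / 2 + 1 = ((m : ℝ) + 2) / 2 + 1 by push_cast; ring,
      Real.Gamma_add_one (by positivity)]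
    have hg := (Real.Gamma_pos_of_pos (show (0 : ℝ) < ((m : ℝ) + 2) / 2 by positivity)).ne'
    push_cast
    field_simp

/-- The inverse length of the cross product. -/
def wt (A : Fin m → Fin (m + 1) → ℝ) : ℝ≥0∞ := (ENNReal.ofReal (cr A))⁻¹

theorem measurable_wt : Measurable (wt : (Fin m → Fin (m + 1) → ℝ) → ℝ≥0∞) :=
  continuous_cr.measurable.ennreal_ofReal.inv

/-- The Gaussian integral of `wt`. -/
def gaussWt (m : ℕ) : ℝ≥0∞ :=
  ∫⁻ A : Fin m → Fin (m + 1) → ℝ, ENNReal.ofReal (Real.exp (-frobSq A)) * wt A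

theorem gaussWt_zero : gaussWt 0 = 1 := by
  have h : ∀ A : Fin 0 → Fin 1 → ℝ, cr A = 1 := fun A => by
    simp [cr, cross, dotProduct]
  rw [gaussWt, lintegral_unique]
  simp [wt, h, frobSq, volume_pi]

theorem cr_cons_axis (r : ℝ) (hr : 0 ≤ r) (B : Fin m → Fin (m + 2) → ℝ) :
    cr (Fin.cons (Pi.single 0 r) B : Fin (m + 1) → Fin (m + 2) → ℝ) =
      r * cr fun i j => B i j.succ := by
  have h0 : cross (Fin.cons (Pi.single 0 r) B : Fin (m + 1) → Fin (m + 2) → ℝ) 0 = 0 := by
    rw [cross, Matrix.det_eq_zero_of_row_eq_zero 0 fun j => ?_, mul_zero]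
    simp
  have hs : ∀ j, cross (Fin.cons (Pi.single 0 r) B : Fin (m + 1) → Fin (m + 2) → ℝ) j.succ =
      -r * cross (fun i j => B i j.succ) j := fun j => by
    rw [cross, cross, Matrix.det_succ_row_zero, Finset.sum_eq_single 0]
    · have e : (((Matrix.of (Fin.cons (Pi.single 0 r) B : Fin (m + 1) → Fin (m + 2) → ℝ)).submatrix
          id j.succ.succAbove).submatrix Fin.succ (0 : Fin (m + 1)).succAbove) =
          (Matrix.of fun i j => B i j.succ).submatrix id j.succAbove := by
        ext p q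
        simp
      rw [e]
      simp [pow_succ]
      ring
    · intro i _ hi
      have : j.succ.succAbove i ≠ 0 := by
        simpa using Fin.succAbove_ne_zero (Fin.succ_ne_zero j) hi
      simp [this]
    · simp
  rw [cr, cr, dotProduct, Fin.sum_univ_succ, h0, zero_mul, zero_add]
  simp only [hs, mul_mul_mul_comm (-r), neg_mul_neg, ← Finset.mul_sum]
  rw [Real.sqrt_mul (mul_self_nonneg r), Real.sqrt_mul_self hr]
  rfl

theorem gaussWt_succ (m : ℕ) :
    gaussWt (m + 1) = ENNReal.ofReal (Real.sqrt π ^ m) * gaussWt m *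
      ENNReal.ofReal (Real.sqrt π ^ (m + 2) * Real.Gamma (((m : ℝ) + 1) / 2) /
        Real.Gamma (((m : ℝ) + 2) / 2)) := by
  -- the integral over the remaining rows, after turning the first one to the axis
  have hinner : ∀ r : ℝ, 0 ≤ r → ∫⁻ B : Fin m → Fin (m + 2) → ℝ, ENNReal.ofReal (Real.exp
      (-frobSq B)) * wt (Fin.cons (Pi.single 0 r) B : Fin (m + 1) → Fin (m + 2) → ℝ) =
      (ENNReal.ofReal r)⁻¹ * (ENNReal.ofReal (Real.sqrt π ^ m) * gaussWt m) := by
    intro r hr
    have hwt : ∀ B : Fin m → Fin (m + 2) → ℝ,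
        wt (Fin.cons (Pi.single 0 r) B : Fin (m + 1) → Fin (m + 2) → ℝ) =
          (ENNReal.ofReal r)⁻¹ * wt (fun i j => B i j.succ) := fun B => by
      rw [wt, cr_cons_axis r hr, ENNReal.ofReal_mul hr, ENNReal.mul_inv
        (Or.inr ENNReal.ofReal_ne_top) (Or.inl ENNReal.ofReal_ne_top), wt]
    simp only [hwt, mul_left_comm _ (ENNReal.ofReal r)⁻¹]
    have hG : Measurable fun B : Fin m → Fin (m + 2) → ℝ =>
        ENNReal.ofReal (Real.exp (-frobSq B)) * wt fun i j => B i j.succ :=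
      (continuous_frobSq.neg.rexp.measurable.ennreal_ofReal).fun_mul
        (measurable_wt.comp (g := wt) (f := fun B : Fin m → Fin (m + 2) → ℝ =>
          fun i (j : Fin (m + 1)) => B i j.succ) (by fun_prop))
    rw [lintegral_const_mul _ hG]
    congr 1
    have hmp : MeasurePreserving ((fun p : Fin m → ℝ × (Fin (m + 1) → ℝ) =>
        fun i => ((MeasurableEquiv.piFinSuccAbove (fun _ : Fin (m + 2) => ℝ) 0).symm (p i))) ∘
        (MeasurableEquiv.arrowProdEquivProdArrow ℝ (Fin (m + 1) → ℝ) (Fin m)).symm)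
        volume volume :=
      (volume_preserving_pi fun _ =>
        (volume_preserving_piFinSuccAbove (fun _ : Fin (m + 2) => ℝ) 0).symm).comp
        (volume_measurePreserving_arrowProdEquivProdArrow ℝ (Fin (m + 1) → ℝ) (Fin m)).symm
    rw [← hmp.lintegral_comp hG, Measure.volume_eq_prod, lintegral_prod _ (by
        refine Measurable.aemeasurable ?_
        exact hG.comp hmp.measurable)]
    have e : ∀ (u : Fin m → ℝ) (C : Fin m → Fin (m + 1) → ℝ),
        ENNReal.ofReal (Real.exp (-frobSq fun i => (Fin.insertNth 0 (u i) (C i) :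
          Fin (m + 2) → ℝ))) * wt (fun i j => (Fin.insertNth 0 (u i) (C i) :
            Fin (m + 2) → ℝ) j.succ) =
        ENNReal.ofReal (Real.exp (-(u ⬝ᵥ u))) *
          (ENNReal.ofReal (Real.exp (-frobSq C)) * wt C) := fun u C => by
      rw [← mul_assoc, ← ENNReal.ofReal_mul (Real.exp_pos _).le, ← Real.exp_add]
      congr 1
      simp [frobSq, dotProduct, Fin.sum_univ_succ, Finset.sum_add_distrib]
      ring_nf
    simp only [Function.comp_apply, MeasurableEquiv.arrowProdEquivProdArrow,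
      MeasurableEquiv.piFinSuccAbove_symm_apply, Fin.insertNthEquiv, MeasurableEquiv.symm_mk,
      MeasurableEquiv.coe_mk, Equiv.arrowProdEquivProdArrow, Equiv.coe_fn_symm_mk,
      Equiv.coe_fn_mk, e]
    rw [lintegral_lintegral_mul
      (f := fun u : Fin m → ℝ => ENNReal.ofReal (Real.exp (-(u ⬝ᵥ u))))
      (g := fun C : Fin m → Fin (m + 1) → ℝ => ENNReal.ofReal (Real.exp (-frobSq C)) * wt C)
      (Continuous.dotProduct continuous_id
        continuous_id).neg.rexp.measurable.ennreal_ofReal.aemeasurable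
      ((continuous_frobSq.neg.rexp.measurable.ennreal_ofReal).fun_mul measurable_wt).aemeasurable,
      lintegral_gauss, gaussWt]
  rw [gaussWt, ← (volume_preserving_piFinSuccAbove (fun _ : Fin (m + 1) => Fin (m + 2) → ℝ)
    0).symm.lintegral_comp_emb (MeasurableEquiv.measurableEmbedding _), Measure.volume_eq_prod,
    lintegral_prod _ (by
      refine Measurable.aemeasurable ?_
      exact ((continuous_frobSq.neg.rexp.measurable.ennreal_ofReal).fun_mul measurable_wt).comp
        (MeasurableEquiv.measurable _))]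
  rw [← lintegral_gauss_div, ← lintegral_const_mul _ (by
    exact ((Continuous.dotProduct continuous_id continuous_id).neg.rexp.measurable.ennreal_ofReal
      ).fun_mul
      (Continuous.dotProduct continuous_id continuous_id).sqrt.measurable.ennreal_ofReal.inv)]
  refine lintegral_congr fun a => ?_
  simp only [MeasurableEquiv.piFinSuccAbove_symm_apply, Fin.insertNthEquiv, Equiv.coe_fn_mk,
    Fin.insertNth_zero']
  obtain ⟨Q, hT, hQQ, haQ⟩ := exists_reflection a
  have hQ : Q * Qᵀ = 1 := by rw [hT, hQQ]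
  have e : ∀ B : Fin m → Fin (m + 2) → ℝ,
      wt (Fin.cons a B : Fin (m + 1) → Fin (m + 2) → ℝ) =
        wt (Fin.cons (Pi.single 0 (Real.sqrt (a ⬝ᵥ a))) fun i => B i ᵥ* Q :
          Fin (m + 1) → Fin (m + 2) → ℝ) := fun B => by
    rw [wt, wt, ← cr_mul hQ]
    congr 3
    funext i
    refine Fin.cases ?_ (fun i => ?_) i <;> simp [haQ]
  simp only [frobSq_cons, neg_add, Real.exp_add, ENNReal.ofReal_mul (Real.exp_pos _).le, e,
    mul_assoc]
  rw [lintegral_const_mul' _ _ ENNReal.ofReal_ne_top]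
  have h2 := (measurePreserving_rows (k := m) hQ).lintegral_comp
    (f := fun B : Fin m → Fin (m + 2) → ℝ => ENNReal.ofReal (Real.exp (-frobSq B)) *
      wt (Fin.cons (Pi.single 0 (Real.sqrt (a ⬝ᵥ a))) B : Fin (m + 1) → Fin (m + 2) → ℝ))
    ((continuous_frobSq.neg.rexp.measurable.ennreal_ofReal).fun_mul (measurable_wt.comp (by
      fun_prop)))
  simp only [frobSq_mul hQ] at h2
  rw [h2, hinner _ (Real.sqrt_nonneg _)]
  ring

/-- **The Gaussian integral of the inverse cross product.** -/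
theorem gaussWt_eq : ∀ m : ℕ, gaussWt m =
    ENNReal.ofReal (Real.sqrt π ^ (m * (m + 1) + 1) / Real.Gamma (((m : ℝ) + 1) / 2))
  | 0 => by
    rw [gaussWt_zero]
    norm_num [Real.Gamma_one_half_eq, (Real.sqrt_pos.2 Real.pi_pos).ne']
  | m + 1 => by
    have h1 := (Real.Gamma_pos_of_pos (show (0 : ℝ) < ((m : ℝ) + 1) / 2 by positivity)).ne'
    have h2 := Real.Gamma_pos_of_pos (show (0 : ℝ) < ((m : ℝ) + 2) / 2 by positivity)
    rw [gaussWt_succ, gaussWt_eq m, ← ENNReal.ofReal_mul (by positivity),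
      ← ENNReal.ofReal_mul (by positivity)]
    congr 1
    rw [show (((m + 1 : ℕ) : ℝ) + 1) / 2 = ((m : ℝ) + 2) / 2 by push_cast; ring]
    field_simp
    ring

end FA.SLnCount

end
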